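import Mathlib

/-!
# Two-dimensional complex representations of `GL₂(𝔽₃)` in which `-1` acts as `-1`

The character of such a representation is determined by its value, `± √-2`, at the companion
matrix of `X² - X - 1`.
-/

set_option autoImplicit false

open Matrix

namespace Fermat.Agent.LT.End

/-- `GL₂(𝔽₃)`. -/
abbrev G3 : Type := GL (Fin 2) (ZMod 3)

/-! ### Complex matrices of finite order -/

section FiniteOrder

variable {M : Matrix (Fin 2) (Fin 2) ℂ}

theorem pow_eq_one_of_root {n : ℕ} (hM : M ^ n = 1) {z : ℂ}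
    (hz : z ^ 2 - M.trace * z + M.det = 0) : z ^ n = 1 := by
  have h0 : (M - z • (1 : Matrix (Fin 2) (Fin 2) ℂ)).det = 0 := by
    rw [← hz, Matrix.det_fin_two, Matrix.det_fin_two, Matrix.trace_fin_two]
    simp only [Matrix.sub_apply, Matrix.smul_apply, Matrix.one_apply_eq, smul_eq_mul, mul_one,
      Matrix.one_apply_ne (show (0 : Fin 2) ≠ 1 by decide),
      Matrix.one_apply_ne (show (1 : Fin 2) ≠ 0 by decide), mul_zero, sub_zero]
    ring
  obtain ⟨v, hv, hv0⟩ := Matrix.exists_mulVec_eq_zero_iff.mpr h0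
  have h1 : M *ᵥ v = z • v := by
    rw [Matrix.sub_mulVec, Matrix.smul_mulVec, Matrix.one_mulVec, sub_eq_zero] at hv0
    exact hv0
  have h2 : ∀ k : ℕ, (M ^ k) *ᵥ v = z ^ k • v := by
    intro k
    induction k with
    | zero => rw [pow_zero, pow_zero, Matrix.one_mulVec, one_smul]
    | succ k ih => rw [pow_succ, ← Matrix.mulVec_mulVec, h1, Matrix.mulVec_smul, ih, smul_smul,
        pow_succ, mul_comm]
  have h3 := h2 n
  rw [hM, Matrix.one_mulVec] at h3
  obtain ⟨i, hi⟩ : ∃ i, v i ≠ 0 := by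
    by_contra hcon
    push Not at hcon
    exact hv (funext hcon)
  have h4 := congrFun h3 i
  rw [Pi.smul_apply, smul_eq_mul] at h4
  exact (mul_right_cancel₀ hi ((one_mul (v i)).trans h4)).symm

/-- The eigenvalues of a matrix of finite order are roots of unity. -/
theorem exists_eigenvalues {n : ℕ} (hM : M ^ n = 1) :
    ∃ z w : ℂ, z ^ n = 1 ∧ w ^ n = 1 ∧ M.trace = z + w ∧ M.det = z * w := by
  obtain ⟨s, hs⟩ := IsAlgClosed.exists_pow_nat_eq (M.trace ^ 2 - 4 * M.det) (n := 2) (by norm_num)
  set z : ℂ := (M.trace + s) / 2 with hz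
  set w : ℂ := (M.trace - s) / 2 with hw
  have h1 : M.trace = z + w := by rw [hz, hw]; ring
  have h2 : M.det = z * w := by
    rw [hz, hw]
    linear_combination (1 / 4 : ℂ) * hs
  refine ⟨z, w, pow_eq_one_of_root hM ?_, pow_eq_one_of_root hM ?_, h1, h2⟩
  · rw [h1, h2]; ring
  · rw [h1, h2]; ring

/-- A complex matrix of finite order with trace `2` is the identity. -/
theorem eq_one_of_trace_two {n : ℕ} (hn : n ≠ 0) (hM : M ^ n = 1) (ht : M.trace = 2) : M = 1 := by
  obtain ⟨z, w, hz, hw, h1, h2⟩ := exists_eigenvalues hM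
  have hz1 : ‖z‖ = 1 := Complex.norm_eq_one_of_pow_eq_one hz hn
  have hw1 : ‖w‖ = 1 := Complex.norm_eq_one_of_pow_eq_one hw hn
  have hre : z.re + w.re = 2 := by
    have := congrArg Complex.re (h1.symm.trans ht)
    simpa using this
  have hz2 : z.re ≤ 1 := (Complex.re_le_norm z).trans_eq hz1
  have hw2 : w.re ≤ 1 := (Complex.re_le_norm w).trans_eq hw1
  have hzr : z.re = 1 := by linarith
  have hwr : w.re = 1 := by linarith
  have key : ∀ u : ℂ, ‖u‖ = 1 → u.re = 1 → u = 1 := by
    intro u hu hur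
    have h3 := Complex.sq_norm u
    rw [hu, Complex.normSq_apply, hur] at h3
    have h4 : u.im = 0 := by
      have : u.im * u.im = 0 := by linarith
      exact mul_self_eq_zero.mp this
    exact Complex.ext (by rw [hur, Complex.one_re]) (by rw [h4, Complex.one_im])
  rw [key z hz1 hzr, key w hw1 hwr, one_mul] at h2
  -- `(M - 1) ^ 2 = 0`
  set N := M - 1 with hN
  have hMN : M = 1 + N := by rw [hN]; abel
  have hNN : N * N = 0 := by
    have e1 : M 0 0 + M 1 1 = 2 := by rw [← ht, Matrix.trace_fin_two]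
    have e2 : M 0 0 * M 1 1 - M 0 1 * M 1 0 = 1 := by rw [← h2, Matrix.det_fin_two]
    have n00 : N 0 0 = M 0 0 - 1 := by simp [hN]
    have n01 : N 0 1 = M 0 1 := by simp [hN]
    have n10 : N 1 0 = M 1 0 := by simp [hN]
    have n11 : N 1 1 = M 1 1 - 1 := by simp [hN]
    ext i j
    fin_cases i <;> fin_cases j <;>
      simp only [Fin.zero_eta, Fin.mk_one, Matrix.mul_apply, Fin.sum_univ_two, Fin.isValue,
        Matrix.zero_apply, n00, n01, n10, n11]
    · linear_combination (M 0 0) * e1 - e2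
    · linear_combination (M 0 1) * e1
    · linear_combination (M 1 0) * e1
    · linear_combination (M 1 1) * e1 - e2
  have hpow : ∀ k : ℕ, M ^ k = 1 + (k : ℂ) • N := by
    intro k
    induction k with
    | zero => simp
    | succ k ih =>
      rw [pow_succ, ih, hMN, mul_add, mul_one, add_mul, one_mul, Matrix.smul_mul, hNN, smul_zero,
        add_zero, Nat.cast_succ, add_smul, one_smul, add_assoc]
  have h5 := hpow n
  rw [hM, eq_comm, add_eq_left, smul_eq_zero] at h5
  rcases h5 with h5 | h5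
  · exact absurd (Nat.cast_eq_zero.mp h5) hn
  · rw [hMN, h5, add_zero]

/-- A complex matrix of finite order with trace `-2` is `-1`. -/
theorem eq_neg_one_of_trace {n : ℕ} (hn : n ≠ 0) (hM : M ^ n = 1) (ht : M.trace = -2) :
    M = -1 := by
  have h1 : (-M) ^ (2 * n) = 1 := by
    rw [pow_mul, neg_sq, ← pow_mul, mul_comm, pow_mul, hM, one_pow]
  have h2 := eq_one_of_trace_two (M := -M) (n := 2 * n) (by omega) h1 (by
    rw [Matrix.trace_neg, ht, neg_neg])
  rw [← neg_neg M, h2]

end FiniteOrder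

/-! ### Finite computations -/

set_option synthInstance.maxHeartbeats 400000 in
set_option synthInstance.maxSize 4096 in
set_option maxRecDepth 100000 in
theorem fin1 : ∀ a b c d : ZMod 3, a + d = 0 → a * d - b * c ≠ 0 →
    ∃ e f k l : ZMod 3, e * l - f * k ≠ 0 ∧ e * a + f * c = -(a * e + b * k) ∧
      e * b + f * d = -(a * f + b * l) ∧ k * a + l * c = -(c * e + d * k) ∧
      k * b + l * d = -(c * f + d * l) := by
  decide

set_option synthInstance.maxHeartbeats 400000 in
set_option synthInstance.maxSize 4096 in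
set_option maxRecDepth 100000 in
theorem fin2 : ∀ a b c d : ZMod 3, a + d = -1 → a * d - b * c = 1 →
    ¬ (a = 1 ∧ b = 0 ∧ c = 0 ∧ d = 1) →
    ∃ e f k l : ZMod 3, e * l - f * k ≠ 0 ∧ e * a + f * c = d * e - b * k ∧
      e * b + f * d = d * f - b * l ∧ k * a + l * c = -c * e + a * k ∧
      k * b + l * d = -c * f + a * l := by
  decide

set_option synthInstance.maxHeartbeats 400000 in
set_option synthInstance.maxSize 4096 in
set_option maxRecDepth 100000 in
theorem fin3 : ∀ a b c d : ZMod 3, a + d = -1 → a * d - b * c = 1 →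
    ¬ (a = 1 ∧ b = 0 ∧ c = 0 ∧ d = 1) →
    ∃ e f k l : ZMod 3, e * l - f * k = 1 ∧
      (a * e + b * k) * (a * l - b * k) + (a * f + b * l) * (c * l - d * k) +
        ((c * e + d * k) * (-a * f + b * e) + (c * f + d * l) * (-c * f + d * e)) = 1 := by
  decide

set_option synthInstance.maxHeartbeats 400000 in
set_option synthInstance.maxSize 4096 in
set_option maxRecDepth 100000 in
theorem fin4 : ∀ a b c d : ZMod 3, a + d = 1 → a * d - b * c = -1 →
    ∃ e f k l : ZMod 3, e * l - f * k ≠ 0 ∧ a * e + b * k = f ∧ a * f + b * l = e + f ∧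
      c * e + d * k = l ∧ c * f + d * l = k + l := by
  decide

set_option synthInstance.maxHeartbeats 400000 in
set_option synthInstance.maxSize 4096 in
theorem fin5 : ∀ t : ZMod 3, t = 0 ∨ t = 1 ∨ t = -1 := by
  decide

set_option synthInstance.maxHeartbeats 400000 in
set_option synthInstance.maxSize 4096 in
theorem fin6 : ∀ t : ZMod 3, t ≠ 0 → t = 1 ∨ t = -1 := by
  decide

/-! ### Elements of `GL₂(𝔽₃)` -/

/-- An element of `GL₂(𝔽₃)` with given entries. -/
def mkG (e f k l : ZMod 3) (h : e * l - f * k ≠ 0) : G3 :=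
  GeneralLinearGroup.mkOfDetNeZero !![e, f; k, l] (by rwa [Matrix.det_fin_two_of])

theorem coe_mkG (e f k l : ZMod 3) (h : e * l - f * k ≠ 0) :
    (mkG e f k l h).1 = !![e, f; k, l] := rfl

theorem det_ne_zero (g : G3) : g.1.det ≠ 0 := by
  have h : IsUnit g.1.det := (Matrix.isUnit_iff_isUnit_det _).mp g.isUnit
  exact h.ne_zero

theorem det_eq (g : G3) : g.1.det = g.1 0 0 * g.1 1 1 - g.1 0 1 * g.1 1 0 := Matrix.det_fin_two _

theorem trace_eq (g : G3) : g.1.trace = g.1 0 0 + g.1 1 1 := Matrix.trace_fin_two _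

theorem val_neg (g : G3) : (-g : G3).1 = -g.1 := Units.val_neg _

theorem conj_neg (g : G3) (ht : g.1.trace = 0) : ∃ h : G3, h * g = -g * h := by
  rw [trace_eq] at ht
  have hd := det_ne_zero g
  rw [det_eq] at hd
  obtain ⟨e, f, k, l, h0, h1, h2, h3, h4⟩ := fin1 _ _ _ _ ht hd
  refine ⟨mkG e f k l h0, Units.ext ?_⟩
  rw [Units.val_mul, Units.val_mul, val_neg, coe_mkG]
  ext i j
  fin_cases i <;> fin_cases j <;> simp [Matrix.mul_apply, Fin.sum_univ_two]
  · linear_combination h1
  · linear_combination h2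
  · linear_combination h3
  · linear_combination h4

/-- The Cayley--Hamilton relation. -/
theorem sq_eq {R : Type*} [CommRing R] (M : Matrix (Fin 2) (Fin 2) R) :
    M * M = M.trace • M - M.det • (1 : Matrix (Fin 2) (Fin 2) R) := by
  rw [Matrix.det_fin_two, Matrix.trace_fin_two]
  ext i j
  fin_cases i <;> fin_cases j <;> simp [Matrix.mul_apply, Fin.sum_univ_two] <;> ring

theorem inv_eq_of_mul {g : G3} {h : Matrix (Fin 2) (Fin 2) (ZMod 3)} (hg : h * g.1 = 1) :
    (g⁻¹ : G3).1 = h := by
  have h1 : g.1 * (g⁻¹ : G3).1 = 1 := by rw [← Units.val_mul, mul_inv_cancel, Units.val_one]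
  calc (g⁻¹ : G3).1 = (h * g.1) * (g⁻¹ : G3).1 := by rw [hg, one_mul]
    _ = h := by rw [mul_assoc, h1, mul_one]

theorem eq_one_iff (g : G3) : g = 1 ↔ (g.1 0 0 = 1 ∧ g.1 0 1 = 0 ∧ g.1 1 0 = 0 ∧ g.1 1 1 = 1) := by
  constructor
  · rintro rfl
    simp
  · rintro ⟨h1, h2, h3, h4⟩
    refine Units.ext ?_
    ext i j
    fin_cases i <;> fin_cases j <;> simp [h1, h2, h3, h4]

theorem coe_inv_of_det (g : G3) (hd : g.1.det = 1) :
    (g⁻¹ : G3).1 = !![g.1 1 1, -g.1 0 1; -g.1 1 0, g.1 0 0] := by
  apply inv_eq_of_mul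
  rw [det_eq] at hd
  ext i j
  fin_cases i <;> fin_cases j <;> simp [Matrix.mul_apply, Fin.sum_univ_two]
  · linear_combination hd
  · ring
  · ring
  · linear_combination hd

theorem conj_inv (g : G3) (ht : g.1.trace = -1) (hd : g.1.det = 1) (h1 : g ≠ 1) :
    ∃ h : G3, h * g = g⁻¹ * h := by
  have hinv := coe_inv_of_det g hd
  rw [Ne, eq_one_iff] at h1
  rw [trace_eq] at ht
  rw [det_eq] at hd
  obtain ⟨e, f, k, l, h0, e1, e2, e3, e4⟩ := fin2 _ _ _ _ ht hd h1
  refine ⟨mkG e f k l h0, Units.ext ?_⟩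
  rw [Units.val_mul, Units.val_mul, hinv, coe_mkG]
  ext i j
  fin_cases i <;> fin_cases j <;> simp [Matrix.mul_apply, Fin.sum_univ_two]
  · linear_combination e1
  · linear_combination e2
  · linear_combination e3
  · linear_combination e4

theorem pow_three_of_trace {R : Type*} [CommRing R] {M : Matrix (Fin 2) (Fin 2) R}
    (ht : M.trace = 1) (hd : M.det = 1) : M ^ 3 = -1 := by
  have h := sq_eq M
  rw [ht, hd, one_smul, one_smul] at h
  rw [pow_succ, pow_two, h, sub_mul, one_mul, h]
  abel

theorem exists_prod (g : G3) (ht : g.1.trace = -1) (hd : g.1.det = 1) (h1 : g ≠ 1) :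
    ∃ h : G3, (g * (h * g * h⁻¹)) ^ 3 = -1 := by
  rw [Ne, eq_one_iff] at h1
  have ht' := ht
  have hd' := hd
  rw [trace_eq] at ht
  rw [det_eq] at hd
  obtain ⟨e, f, k, l, h0, e1⟩ := fin3 _ _ _ _ ht hd h1
  have hne : e * l - f * k ≠ 0 := by rw [h0]; decide
  refine ⟨mkG e f k l hne, Units.ext ?_⟩
  have hinv : ((mkG e f k l hne)⁻¹ : G3).1 = !![l, -f; -k, e] := by
    have := coe_inv_of_det (mkG e f k l hne) (by rw [coe_mkG, Matrix.det_fin_two_of, h0])
    rw [this, coe_mkG]
    simp
  rw [Units.val_pow_eq_pow_val, Units.val_neg, Units.val_one]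
  refine pow_three_of_trace ?_ ?_
  · rw [← e1, Units.val_mul, Units.val_mul, Units.val_mul, hinv, coe_mkG, Matrix.trace_fin_two]
    simp only [Matrix.mul_apply, Fin.sum_univ_two, Matrix.of_apply, Matrix.cons_val', Fin.isValue,
      Matrix.cons_val_zero, Matrix.cons_val_one, Matrix.cons_val_fin_one]
    ring
  · rw [Units.val_mul, Units.val_mul, Units.val_mul, Matrix.det_mul, Matrix.det_mul,
      Matrix.det_mul, hinv, coe_mkG, hd', Matrix.det_fin_two_of, Matrix.det_fin_two_of]
    linear_combination (e * l - f * k + 1) * h0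

/-- The companion matrix of `X² - X - 1`. -/
def comp : G3 := mkG 0 1 1 1 (by decide)

theorem conj_comp (g : G3) (ht : g.1.trace = 1) (hd : g.1.det = -1) :
    ∃ h : G3, g * h = h * comp := by
  rw [trace_eq] at ht
  rw [det_eq] at hd
  obtain ⟨e, f, k, l, h0, e1, e2, e3, e4⟩ := fin4 _ _ _ _ ht hd
  refine ⟨mkG e f k l h0, Units.ext ?_⟩
  rw [Units.val_mul, Units.val_mul, comp, coe_mkG, coe_mkG]
  ext i j
  fin_cases i <;> fin_cases j <;> simp [Matrix.mul_apply, Fin.sum_univ_two]
  · linear_combination e1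
  · linear_combination e2
  · linear_combination e3
  · linear_combination e4

/-! ### Representations in which `-1` acts as `-1` -/

section Rep

variable (S : G3 →* GL (Fin 2) ℂ)

/-- The character. -/
noncomputable def tr (g : G3) : ℂ := (S g).1.trace

/-- The determinant. -/
noncomputable def dt (g : G3) : ℂ := (S g).1.det

theorem dt_mul (g h : G3) : dt S (g * h) = dt S g * dt S h := by
  rw [dt, map_mul, Units.val_mul, Matrix.det_mul]; rfl

theorem dt_one : dt S 1 = 1 := by rw [dt, map_one, Units.val_one, Matrix.det_one]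

theorem dt_ne_zero (g : G3) : dt S g ≠ 0 := by
  intro h
  have h1 := dt_mul S g g⁻¹
  rw [mul_inv_cancel, dt_one, h, zero_mul] at h1
  exact one_ne_zero h1

theorem tr_one : tr S 1 = 2 := by
  rw [tr, map_one, Units.val_one, Matrix.trace_one, Fintype.card_fin, Nat.cast_ofNat]

theorem tr_conj (g h : G3) : tr S (h * g * h⁻¹) = tr S g := by
  rw [tr, map_mul, map_mul, map_inv, Units.val_mul, Units.val_mul, Matrix.trace_mul_comm,
    ← mul_assoc, ← Units.val_mul, inv_mul_cancel, Units.val_one, one_mul]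
  rfl

theorem dt_conj (g h : G3) : dt S (h * g * h⁻¹) = dt S g := by
  have h1 := dt_mul S h h⁻¹
  rw [mul_inv_cancel, dt_one] at h1
  rw [dt_mul, dt_mul]
  linear_combination (-dt S g) * h1

theorem finite_order (g : G3) : ∃ n : ℕ, n ≠ 0 ∧ (S g).1 ^ n = 1 := by
  have : Finite G3 := inferInstance
  refine ⟨orderOf g, (orderOf_pos g).ne', ?_⟩
  rw [← Units.val_pow_eq_pow_val, ← map_pow, pow_orderOf_eq_one, map_one, Units.val_one]

variable {S} (hS : S (-1) = -1)

include hS

theorem map_neg (g : G3) : S (-g) = -S g := by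
  rw [← neg_one_mul, map_mul, hS, neg_one_mul]

theorem tr_neg (g : G3) : tr S (-g) = -tr S g := by
  rw [tr, map_neg hS, Units.val_neg, Matrix.trace_neg]; rfl

theorem dt_neg (g : G3) : dt S (-g) = dt S g := by
  rw [dt, map_neg hS, Units.val_neg, Matrix.det_neg, Fintype.card_fin]
  simp [dt]

/-- Elements of trace zero. -/
theorem tr_of_trace_zero (g : G3) (ht : g.1.trace = 0) : tr S g = 0 := by
  obtain ⟨h, hh⟩ := conj_neg g ht
  have h1 := tr_conj S g h
  rw [hh, mul_assoc, mul_inv_cancel, mul_one, tr_neg hS] at h1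
  have : (2 : ℂ) * tr S g = 0 := by linear_combination -h1
  exact (mul_eq_zero.mp this).resolve_left two_ne_zero

theorem dt_of_trace_zero (g : G3) (ht : g.1.trace = 0) :
    dt S g = 1 ∧ g.1.det = 1 ∨ dt S g = -1 ∧ g.1.det = -1 := by
  have h0 := tr_of_trace_zero hS g ht
  have h1 := sq_eq (S g).1
  have h2 := sq_eq g.1
  rw [show (S g).1.trace = 0 from h0, zero_smul, zero_sub] at h1
  rw [ht, zero_smul, zero_sub] at h2
  have h3 : (S (g * g)).1 = -(dt S g • (1 : Matrix (Fin 2) (Fin 2) ℂ)) := by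
    rw [map_mul, Units.val_mul, h1]; rfl
  rcases fin6 _ (det_ne_zero g) with h | h
  · left
    refine ⟨?_, h⟩
    have h4 : g * g = -1 := Units.ext (by
      rw [Units.val_mul, h2, h, one_smul, Units.val_neg, Units.val_one])
    rw [h4, hS, Units.val_neg, Units.val_one, neg_inj] at h3
    have h5 := congrFun (congrFun h3 0) 0
    simpa using h5.symm
  · right
    refine ⟨?_, h⟩
    have h4 : g * g = 1 := Units.ext (by
      rw [Units.val_mul, h2, h, neg_one_smul, neg_neg, Units.val_one])
    rw [h4, map_one, Units.val_one] at h3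
    have h5 := congrFun (congrFun h3 0) 0
    simp only [Matrix.one_apply_eq, Matrix.neg_apply, Matrix.smul_apply, smul_eq_mul,
      mul_one] at h5
    linear_combination h5

omit hS in
theorem pow_three_eq_one {R : Type*} [CommRing R] {M : Matrix (Fin 2) (Fin 2) R}
    (ht : M.trace = -1) (hd : M.det = 1) : M ^ 3 = 1 := by
  have h := sq_eq M
  rw [ht, hd, neg_one_smul, one_smul] at h
  rw [pow_succ, pow_two, h, sub_mul, neg_mul, one_mul, h]
  abel

/-- Elements of order three. -/
theorem tr_dt_of_order_three (g : G3) (ht : g.1.trace = -1) (hd : g.1.det = 1) (h1 : g ≠ 1) :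
    tr S g = -1 ∧ dt S g = 1 := by
  have hg3 : g ^ 3 = 1 := Units.ext (by
    rw [Units.val_pow_eq_pow_val, pow_three_eq_one ht hd, Units.val_one])
  have hdt : dt S g = 1 := by
    obtain ⟨h, hh⟩ := conj_inv g ht hd h1
    have h2 := dt_conj S g h
    rw [hh, mul_assoc, mul_inv_cancel, mul_one] at h2
    have h3 := dt_mul S g g⁻¹
    rw [mul_inv_cancel, dt_one, h2] at h3
    have h4 : dt S (g * g * g) = 1 := by
      rw [show g * g * g = g ^ 3 by rw [pow_succ, pow_two], hg3, dt_one]
    rw [dt_mul, dt_mul, ← h3, one_mul] at h4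
    exact h4
  refine ⟨?_, hdt⟩
  -- `t ^ 3 - 3 t = 2`
  have e1 := sq_eq (S g).1
  rw [show (S g).1.det = 1 from hdt, one_smul] at e1
  have e2 : (S g).1 * (S g).1 * (S g).1 = 1 := by
    rw [← Units.val_mul, ← Units.val_mul, ← map_mul, ← map_mul,
      show g * g * g = g ^ 3 by rw [pow_succ, pow_two], hg3, map_one, Units.val_one]
  have e3 := congrArg Matrix.trace e2
  rw [e1, sub_mul, one_mul, Matrix.smul_mul, e1, Matrix.trace_sub, Matrix.trace_smul,
    Matrix.trace_sub, Matrix.trace_smul, Matrix.trace_one, Fintype.card_fin, smul_eq_mul,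
    smul_eq_mul] at e3
  have e4 : (tr S g - 2) * ((tr S g + 1) * (tr S g + 1)) = 0 := by
    have : tr S g = (S g).1.trace := rfl
    rw [this]
    push_cast at e3
    linear_combination e3
  rcases mul_eq_zero.mp e4 with h | h
  · exfalso
    obtain ⟨n, hn, hn1⟩ := finite_order S g
    have e5 : S g = 1 := Units.ext (by
      rw [eq_one_of_trace_two hn hn1 (sub_eq_zero.mp h), Units.val_one])
    obtain ⟨y, hy⟩ := exists_prod g ht hd h1
    have e6 := congrArg S hy
    rw [map_pow, map_mul, map_mul, map_mul, e5, one_mul, mul_one, map_inv, mul_inv_cancel,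
      one_pow, hS] at e6
    have e7 : (1 : Matrix (Fin 2) (Fin 2) ℂ) 0 0 = (-1 : Matrix (Fin 2) (Fin 2) ℂ) 0 0 :=
      congrArg (fun u : GL (Fin 2) ℂ => u.1 0 0) e6
    rw [Matrix.neg_apply, Matrix.one_apply_eq] at e7
    norm_num at e7
  · have := mul_self_eq_zero.mp h
    linear_combination this

/-- The determinant. -/
theorem dt_eq (g : G3) : dt S g = 1 ∧ g.1.det = 1 ∨ dt S g = -1 ∧ g.1.det = -1 := by
  have key : ∀ g : G3, g.1.det = 1 → dt S g = 1 := by
    intro g hd
    rcases fin5 g.1.trace with ht | ht | ht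
    · rcases dt_of_trace_zero hS g ht with h | h
      · exact h.1
      · rw [h.2] at hd
        exact absurd hd (by decide)
    · by_cases h1 : -g = 1
      · rw [← dt_neg hS, h1, dt_one]
      · rw [← dt_neg hS]
        exact (tr_dt_of_order_three hS (-g) (by rw [val_neg, Matrix.trace_neg, ht])
          (by rw [val_neg, Matrix.det_neg, Fintype.card_fin, hd]; norm_num) h1).2
    · by_cases h1 : g = 1
      · rw [h1, dt_one]
      · exact (tr_dt_of_order_three hS g ht hd h1).2
  rcases fin6 _ (det_ne_zero g) with h | h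
  · exact Or.inl ⟨key g h, h⟩
  · right
    refine ⟨?_, h⟩
    let s : G3 := mkG 1 0 0 (-1) (by decide)
    have hs : s.1.trace = 0 := by
      change (!![(1 : ZMod 3), 0; 0, -1]).trace = 0
      rw [Matrix.trace_fin_two_of]; decide
    have hsd : s.1.det = -1 := by
      change (!![(1 : ZMod 3), 0; 0, -1]).det = -1
      rw [Matrix.det_fin_two_of]; decide
    have h2 : dt S s = -1 := by
      rcases dt_of_trace_zero hS s hs with h | h
      · rw [h.2] at hsd
        exact absurd hsd (by decide)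
      · exact h.1
    have h3 := key (s * g) (by rw [Units.val_mul, Matrix.det_mul, hsd, h]; decide)
    rw [dt_mul, h2] at h3
    linear_combination -h3

/-- Elements of order eight. -/
theorem tr_sq (g : G3) (ht : g.1.trace ≠ 0) (hd : g.1.det = -1) : tr S g ^ 2 = -2 := by
  have h1 : dt S g = -1 := by
    rcases dt_eq hS g with h | h
    · rw [h.2] at hd
      exact absurd hd (by decide)
    · exact h.1
  have h2 : tr S (g * g) = 0 := by
    apply tr_of_trace_zero hS
    rw [Units.val_mul, sq_eq, hd, Matrix.trace_sub, Matrix.trace_smul, Matrix.trace_smul,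
      Matrix.trace_one, Fintype.card_fin, smul_eq_mul, smul_eq_mul]
    rcases fin6 _ ht with h | h <;> rw [h] <;> decide
  have h3 : tr S (g * g) = tr S g ^ 2 - 2 * dt S g := by
    rw [tr, map_mul, Units.val_mul, sq_eq, Matrix.trace_sub, Matrix.trace_smul, Matrix.trace_smul,
      Matrix.trace_one, Fintype.card_fin, smul_eq_mul, smul_eq_mul, tr, dt]
    push_cast
    ring
  rw [h2, h1] at h3
  linear_combination -h3

theorem tr_comp_sq : tr S comp ^ 2 = -2 := by
  apply tr_sq hS
  · change (!![(0 : ZMod 3), 1; 1, 1]).trace ≠ 0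
    rw [Matrix.trace_fin_two_of]; decide
  · change (!![(0 : ZMod 3), 1; 1, 1]).det = -1
    rw [Matrix.det_fin_two_of]; decide

/-- The character is determined by its value at `comp`. -/
theorem tr_eq_of_comp {R : G3 →* GL (Fin 2) ℂ} (hR : R (-1) = -1)
    (h : tr S comp = tr R comp) (g : G3) : tr S g = tr R g := by
  rcases fin5 g.1.trace with ht | ht | ht
  · rw [tr_of_trace_zero hS g ht, tr_of_trace_zero hR g ht]
  · rcases fin6 _ (det_ne_zero g) with hd | hd
    · by_cases h1 : -g = 1
      · have h2 : g = -1 := by rw [← neg_neg g, h1]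
        rw [h2, tr_neg hS, tr_neg hR, tr_one, tr_one]
      · have h2 : (-g : G3).1.trace = -1 := by rw [val_neg, Matrix.trace_neg, ht]
        have h3 : (-g : G3).1.det = 1 := by
          rw [val_neg, Matrix.det_neg, Fintype.card_fin, hd]; norm_num
        have h4 := (tr_dt_of_order_three hS (-g) h2 h3 h1).1
        have h5 := (tr_dt_of_order_three hR (-g) h2 h3 h1).1
        rw [tr_neg hS] at h4
        rw [tr_neg hR] at h5
        linear_combination h5 - h4
    · obtain ⟨y, hy⟩ := conj_comp g ht hd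
      have h2 : g = y * comp * y⁻¹ := by rw [← hy, mul_assoc, mul_inv_cancel, mul_one]
      rw [h2, tr_conj, tr_conj, h]
  · rcases fin6 _ (det_ne_zero g) with hd | hd
    · by_cases h1 : g = 1
      · rw [h1, tr_one, tr_one]
      · rw [(tr_dt_of_order_three hS g ht hd h1).1, (tr_dt_of_order_three hR g ht hd h1).1]
    · have h2 : (-g : G3).1.trace = 1 := by rw [val_neg, Matrix.trace_neg, ht, neg_neg]
      have h3 : (-g : G3).1.det = -1 := by
        rw [val_neg, Matrix.det_neg, Fintype.card_fin, hd]; norm_num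
      obtain ⟨y, hy⟩ := conj_comp (-g) h2 h3
      have h4 : -g = y * comp * y⁻¹ := by rw [← hy, mul_assoc, mul_inv_cancel, mul_one]
      have h5 : tr S (-g) = tr R (-g) := by rw [h4, tr_conj, tr_conj, h]
      rw [tr_neg hS, tr_neg hR] at h5
      exact neg_inj.mp h5

end Rep

end Fermat.Agent.LT.End
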