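import Fermat.Prelude.Def_LanglandsTunnell_WeightOneRealizationCarriers
import Fermat.Prelude.Def_GaloisRep_ModThreeCyclotomic
import Fermat.Agent.LT.End.GLTwoThree
import Fermat.Agent.LTF.DeepCheb
import Fermat.Agent.S48
import Fermat.Agent.Ext.E46.Eigensystem
import Fermat.Agent.GalRep.Cyclo
import Fermat.Agent.DS.Irred

/-!
# From a weight one eigenform to the octahedral Langlands--Tunnell statement

`galois_half`: a normalised eigenform of weight one, of level divisible by `3`, with vanishing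
coefficients at the integers not prime to the level, whose eigenvalue at `p` is `2` (resp. `-2`)
if `ρ (Frob p)` is `1` (resp. `-1`), realises the representation `Ψ ∘ ρ`.
-/

set_option autoImplicit false

open Matrix WeierstrassCurve FLT.ExplicitLift EisensteinWeightOne CongruenceSubgroup
open ModularFormClass

namespace Fermat.Agent.LT.End

local notation "Γℚ" => (AlgebraicClosure ℚ ≃ₐ[ℚ] AlgebraicClosure ℚ)

/-! ### Frobenius elements and the cyclotomic character -/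

theorem modThree_frobenius {p : ℕ} (hp : p.Prime) (hp3 : p ≠ 3)
    {A : ValuationSubring (AlgebraicClosure ℚ)} (hA : A.LiesOverPrime p) {σ : Γℚ}
    (hσ : A.IsFrobeniusAt σ p) : ((modThreeCyclotomicChar σ : (ZMod 3)ˣ) : ZMod 3) = p := by
  rw [modThreeCyclotomicChar_apply]
  refine (modularCyclotomicCharacter.unique _ _ _ fun t ht => ?_).symm
  have ht3 : (t : AlgebraicClosure ℚ) ^ 3 = 1 := by
    rw [← Units.val_pow_eq_pow_val, (mem_rootsOfUnity 3 t).mp ht, Units.val_one]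
  have h1 : σ (t : AlgebraicClosure ℚ) = (t : AlgebraicClosure ℚ) ^ p :=
    GalRep.frobenius_rootOfUnity hA ((Nat.coprime_primes hp Nat.prime_three).mpr hp3)
      (by norm_num) hσ ht3
  have h2 : (t : AlgebraicClosure ℚ) ^ p = (t : AlgebraicClosure ℚ) ^ ((p : ZMod 3).val) := by
    rw [ZMod.val_natCast]
    conv_lhs => rw [← Nat.div_add_mod p 3, pow_add, pow_mul, ht3, one_pow, one_mul]
  exact h1.trans h2

/-- A continuous homomorphism to `GL₂(𝔽₃)` factors through a finite level. -/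
theorem exists_level (ρ : Γℚ →* G3) (hρ : Continuous ρ) :
    ∃ L : IntermediateField ℚ (AlgebraicClosure ℚ), FiniteDimensional ℚ L ∧
      ∀ σ : Γℚ, (∀ x ∈ L, σ x = x) → ρ σ = 1 := by
  have h1 : IsOpen (ρ ⁻¹' {1}) := (isOpen_discrete ({1} : Set G3)).preimage hρ
  have h2 : ρ ⁻¹' {1} ∈ nhds (1 : Γℚ) := h1.mem_nhds (by simp)
  obtain ⟨E, hE, hE'⟩ := (krullTopology_mem_nhds_one_iff ℚ (AlgebraicClosure ℚ) _).mp h2
  refine ⟨E, hE, fun σ hσ => hE' ?_⟩
  exact (IntermediateField.mem_fixingSubgroup_iff _ _).mpr hσ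

/-! ### The lift `Ψ` -/

section Lift

variable (Ψ : G3 →* GL (Fin 2) (ℤ√(-2)))
  (hΨ : ∀ g, Matrix.GeneralLinearGroup.map red (Ψ g) = g)

theorem embedding_injective (ι : ℤ√(-2) →+* ℂ) : Function.Injective ι := by
  have h := Zsqrtd.lift_injective (Zsqrtd.lift.symm ι) (fun n hn => by nlinarith [mul_self_nonneg n])
  rwa [Equiv.apply_symm_apply] at h

/-- The complex representation attached to `Ψ` and an embedding. -/
noncomputable def rep (ι : ℤ√(-2) →+* ℂ) : G3 →* GL (Fin 2) ℂ :=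
  (Matrix.GeneralLinearGroup.map ι).comp Ψ

theorem tr_rep (ι : ℤ√(-2) →+* ℂ) (g : G3) : tr (rep Ψ ι) g = ι (Ψ g).1.trace := by
  rw [tr, rep]
  change ((Ψ g).1.map ι).trace = _
  rw [Matrix.trace_fin_two, Matrix.trace_fin_two, map_add]
  rfl

include hΨ

theorem rep_neg_one (ι : ℤ√(-2) →+* ℂ) : rep Ψ ι (-1) = -1 := by
  have h0 : red (Ψ (-1)).1.trace = 1 := by
    have h1 := congrArg (fun g : G3 => g.1.trace) (hΨ (-1))
    change ((Ψ (-1)).1.map red).trace = (-1 : Matrix (Fin 2) (Fin 2) (ZMod 3)).trace at h1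
    rw [Matrix.trace_fin_two] at h1 ⊢
    rw [map_add]
    refine h1.trans ?_
    rw [Matrix.trace_neg, Matrix.trace_one, Fintype.card_fin]
    decide
  have h2 : (rep Ψ ι (-1)).1 ^ 2 = 1 := by
    rw [← Units.val_pow_eq_pow_val, ← map_pow, neg_one_sq, map_one, Units.val_one]
  obtain ⟨z, w, hz, hw, ht, -⟩ := exists_eigenvalues h2
  have ht' : ι (Ψ (-1)).1.trace = z + w := by rw [← tr_rep, tr, ht]
  have hinj := embedding_injective ι
  have hz' : z = 1 ∨ z = -1 := sq_eq_one_iff.mp hz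
  have hw' : w = 1 ∨ w = -1 := sq_eq_one_iff.mp hw
  have h3 : (rep Ψ ι (-1)).1.trace = -2 := by
    rw [ht]
    rcases hz' with rfl | rfl <;> rcases hw' with rfl | rfl
    · exfalso
      have : (Ψ (-1)).1.trace = 2 := hinj (by rw [ht', map_ofNat]; norm_num)
      rw [this, map_ofNat] at h0
      exact absurd h0 (by decide)
    · exfalso
      have : (Ψ (-1)).1.trace = 0 := hinj (by rw [ht', map_zero]; norm_num)
      rw [this, map_zero] at h0
      exact absurd h0 (by decide)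
    · exfalso
      have : (Ψ (-1)).1.trace = 0 := hinj (by rw [ht', map_zero]; norm_num)
      rw [this, map_zero] at h0
      exact absurd h0 (by decide)
    · norm_num
  exact Units.ext (eq_neg_one_of_trace two_ne_zero h2 h3)

/-- A representation of `GL₂(𝔽₃)` with `-1 ↦ -1` has the traces of `Ψ`, for one of the two
embeddings. -/
theorem exists_embedding {S : G3 →* GL (Fin 2) ℂ} (hS : S (-1) = -1) :
    ∃ ι : ℤ√(-2) →+* ℂ, ∀ g, tr S g = ι (Ψ g).1.trace := by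
  have hsq : (Complex.I * (Real.sqrt 2 : ℂ)) * (Complex.I * (Real.sqrt 2 : ℂ)) =
      ((-2 : ℤ) : ℂ) := by
    have h2 : ((Real.sqrt 2 : ℝ) : ℂ) * (Real.sqrt 2 : ℝ) = 2 := by
      rw [← Complex.ofReal_mul, Real.mul_self_sqrt (by norm_num)]
      norm_num
    push_cast
    linear_combination (Real.sqrt 2 : ℂ) * (Real.sqrt 2 : ℂ) * Complex.I_mul_I - h2
  let ι : ℤ√(-2) →+* ℂ := Zsqrtd.lift ⟨_, hsq⟩
  let ι' : ℤ√(-2) →+* ℂ := (starRingEnd ℂ).comp ι
  have h1 := tr_comp_sq hS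
  have h2 := tr_comp_sq (rep_neg_one Ψ hΨ ι)
  have h3 : tr (rep Ψ ι') comp = -tr (rep Ψ ι) comp := by
    rw [tr_rep, tr_rep]
    change (starRingEnd ℂ) (ι (Ψ comp).1.trace) = _
    rw [tr_rep] at h2
    set z := ι (Ψ comp).1.trace with hz
    have hre : z.re * z.re - z.im * z.im = -2 := by
      have := congrArg Complex.re h2
      simpa [pow_two] using this
    have him : z.re * z.im = 0 := by
      have := congrArg Complex.im h2
      simp [pow_two] at this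
      linarith
    have hz0 : z.re = 0 := by
      rcases mul_eq_zero.mp him with h | h
      · exact h
      · rw [h, mul_zero, sub_zero] at hre
        nlinarith [mul_self_nonneg z.re]
    exact Complex.ext (by simp [hz0]) (by simp)
  have h4 : tr S comp = tr (rep Ψ ι) comp ∨ tr S comp = -tr (rep Ψ ι) comp :=
    sq_eq_sq_iff_eq_or_eq_neg.mp (h1.trans h2.symm)
  rcases h4 with h4 | h4
  · exact ⟨ι, fun g => by rw [tr_eq_of_comp hS (rep_neg_one Ψ hΨ ι) h4 g, tr_rep]⟩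
  · rw [← h3] at h4
    exact ⟨ι', fun g => by rw [tr_eq_of_comp hS (rep_neg_one Ψ hΨ ι') h4 g, tr_rep]⟩

end Lift

/-! ### Factorisation through `ρ` -/

theorem exists_factor {ρ : Γℚ →* G3} (hsurj : Function.Surjective ρ) {r : Γℚ →* GL (Fin 2) ℂ}
    (hker : ∀ σ, ρ σ = 1 → r σ = 1) : ∃ S : G3 →* GL (Fin 2) ℂ, ∀ σ, S (ρ σ) = r σ :=
  ⟨ρ.liftOfSurjective hsurj ⟨r, fun σ hσ => hker σ hσ⟩,
    fun _ => MonoidHom.liftOfRightInverse_comp_apply _ _ _ _ _⟩

/-- A complex representation with finite image whose Frobenius traces at the primes `p` with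
`ρ (Frob p) = ± 1` are `± 2` factors through `ρ`. -/
theorem exists_factor_of_frobenius {ρ : Γℚ →* G3} (hρ : Continuous ρ)
    (hsurj : Function.Surjective ρ) {r : Γℚ →* GL (Fin 2) ℂ}
    (hr : GaloisFactorsThroughFiniteLevel r) (T : Finset ℕ)
    (hx : ∀ p : ℕ, p.Prime → p ∉ T → ∀ A : ValuationSubring (AlgebraicClosure ℚ),
      A.LiesOverPrime p → ∀ σ : Γℚ, A.IsFrobeniusAt σ p →
        (ρ σ = 1 → (r σ).1.trace = 2) ∧ (ρ σ = -1 → (r σ).1.trace = -2)) :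
    ∃ S : G3 →* GL (Fin 2) ℂ, S (-1) = -1 ∧ ∀ σ, S (ρ σ) = r σ := by
  have htr : ∀ σ : Γℚ, (ρ σ = 1 → (r σ).1.trace = 2) ∧ (ρ σ = -1 → (r σ).1.trace = -2) := by
    intro σ
    obtain ⟨L₁, hL₁, h1⟩ := exists_level ρ hρ
    obtain ⟨L₂, hL₂, h2⟩ := hr
    obtain ⟨q, hq, hqT, A, hA, -, φ, hφ, h3⟩ :=
      LTF.Deep.exists_frob_eq_on (L₁ ⊔ L₂) σ T
    have key : ∀ {M : Type} [Group M] (f : Γℚ →* M) (L : IntermediateField ℚ (AlgebraicClosure ℚ)),
        (∀ τ : Γℚ, (∀ x ∈ L, τ x = x) → f τ = 1) → L ≤ L₁ ⊔ L₂ → f φ = f σ := by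
      intro M _ f L hf hL
      have h4 : f (σ⁻¹ * φ) = 1 := by
        apply hf
        intro x hx
        rw [AlgEquiv.mul_apply, h3 x (hL hx), ← AlgEquiv.mul_apply, inv_mul_cancel,
          AlgEquiv.one_apply]
      rw [map_mul, map_inv, inv_mul_eq_one] at h4
      exact h4.symm
    have h5 := key ρ L₁ h1 le_sup_left
    have h6 := key r L₂ h2 le_sup_right
    have h7 := hx q hq hqT A hA φ hφ
    rwa [h5, h6] at h7
  have hfin : ∀ σ : Γℚ, ∃ n : ℕ, n ≠ 0 ∧ (r σ).1 ^ n = 1 := by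
    intro σ
    have hfr : Finite r.range := DS.finite_range_of_factors hr
    have h1 : IsOfFinOrder (⟨r σ, ⟨σ, rfl⟩⟩ : r.range) := isOfFinOrder_of_finite _
    refine ⟨orderOf (⟨r σ, ⟨σ, rfl⟩⟩ : r.range), h1.orderOf_pos.ne', ?_⟩
    have h2 := pow_orderOf_eq_one (⟨r σ, ⟨σ, rfl⟩⟩ : r.range)
    have h3 := congrArg Subtype.val h2
    rw [← Units.val_pow_eq_pow_val]
    exact congrArg Units.val h3
  obtain ⟨S, hS⟩ := exists_factor hsurj (r := r) (fun σ hσ => by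
    obtain ⟨n, hn, hn1⟩ := hfin σ
    exact Units.ext (eq_one_of_trace_two hn hn1 ((htr σ).1 hσ)))
  refine ⟨S, ?_, hS⟩
  obtain ⟨σ, hσ⟩ := hsurj (-1)
  obtain ⟨n, hn, hn1⟩ := hfin σ
  rw [← hσ, hS]
  exact Units.ext (eq_neg_one_of_trace hn hn1 ((htr σ).2 hσ))

theorem chi_eq_one {n : ℕ} (h : (n : ZMod 3) = 1) : chiNegThree n = 1 := by
  have h1 : n % 3 = 1 := by
    have h2 := (ZMod.natCast_eq_natCast_iff n 1 3).mp (by rw [h, Nat.cast_one])
    exact h2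
  rw [chiNegThree, if_pos h1]

theorem chi_eq_neg_one {n : ℕ} (h : (n : ZMod 3) = -1) : chiNegThree n = -1 := by
  have h1 : n % 3 = 2 := by
    have h2 := (ZMod.natCast_eq_natCast_iff n 2 3).mp (by rw [h]; decide)
    exact h2
  rw [chiNegThree, if_neg (by omega), if_pos h1]

/-- **The Galois half of the end game.** -/
theorem galois_half
    (ρ : Γℚ →* GL (Fin 2) (ZMod 3)) (hρ : Continuous ρ) (hsurj : Function.Surjective ρ)
    (hdet : ∀ σ : Γℚ, Matrix.GeneralLinearGroup.det (ρ σ) = modThreeCyclotomicChar σ)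
    (Ψ : GL (Fin 2) (ZMod 3) →* GL (Fin 2) (ℤ√(-2)))
    (hΨ : ∀ g, Matrix.GeneralLinearGroup.map red (Ψ g) = g)
    {N : ℕ} [NeZero N] (h3 : 3 ∣ N) (ε : DirichletCharacter ℂ N) (g : CuspForm (Gamma1 N) 1)
    (h1 : qCoeff g 1 = 1)
    (hT : ∀ p : ℕ, p.Prime → ¬ p ∣ N → ∀ n : ℕ,
      qCoeff g (p * n) + ε (p : ZMod N) * (if p ∣ n then qCoeff g (n / p) else 0) =
        qCoeff g p * qCoeff g n)
    (hdep : ∀ n : ℕ, ¬ n.Coprime N → qCoeff g n = 0)
    (hx : ∀ p : ℕ, p.Prime → ¬ p ∣ N → ∀ A : ValuationSubring (AlgebraicClosure ℚ),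
      A.LiesOverPrime p → ∀ σ : Γℚ, A.IsFrobeniusAt σ p →
        (ρ σ = 1 → qCoeff g p = 2) ∧ (ρ σ = -1 → qCoeff g p = -2)) :
    ∃ (N : ℕ) (_ : NeZero N) (b : ℕ → ℤ√(-2)),
      FormalHecke.IsEigensystem
        (fun ℓ => if ℓ ∣ N then 0 else ((chiNegThree ℓ : ℤ) : ℤ√(-2))) b ∧
      CuspForm.IsWeightOneChiNegThreeRealized N b ∧
      ∀ p : ℕ, p.Prime → ¬ p ∣ 3 * N →
        ∀ A : ValuationSubring (AlgebraicClosure ℚ), A.LiesOverPrime p →
          ∀ σ : Γℚ, A.IsFrobeniusAt σ p →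
            b p = ((Ψ (ρ σ) : GL (Fin 2) (ℤ√(-2))) :
              Matrix (Fin 2) (Fin 2) (ℤ√(-2))).trace := by
  classical
  obtain ⟨r, hr, -, hrp⟩ := S48.result N ε g h1 hT
  obtain ⟨S, hS, hSr⟩ := exists_factor_of_frobenius hρ hsurj hr N.primeFactors (by
    intro p hp hpT A hA σ hσ
    have hpN : ¬ p ∣ N := fun h => hpT (Nat.mem_primeFactors.mpr ⟨hp, h, NeZero.ne N⟩)
    have h2 := ((hrp p hp hpN A hA).2 σ hσ).1
    rw [h2]
    exact hx p hp hpN A hA σ hσ)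
  obtain ⟨ι, hι⟩ := exists_embedding Ψ hΨ hS
  have hinj := embedding_injective ι
  -- the eigenvalues
  have htr : ∀ p : ℕ, p.Prime → ¬ p ∣ N → ∀ A : ValuationSubring (AlgebraicClosure ℚ),
      A.LiesOverPrime p → ∀ σ : Γℚ, A.IsFrobeniusAt σ p →
        qCoeff g p = ι (Ψ (ρ σ)).1.trace := by
    intro p hp hpN A hA σ hσ
    rw [← hι, tr, hSr]
    exact ((hrp p hp hpN A hA).2 σ hσ).1.symm
  -- the character
  have hε : ∀ p : ℕ, p.Prime → ¬ p ∣ N → ε (p : ZMod N) = ((chiNegThree p : ℤ) : ℂ) := by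
    intro p hp hpN
    obtain ⟨A, hA, σ, hσ⟩ := Frob.exists_frobenius p hp
    have hp3 : p ≠ 3 := fun h => hpN (h ▸ h3)
    have h4 : ε (p : ZMod N) = dt S (ρ σ) := by
      rw [dt, hSr]
      exact ((hrp p hp hpN A hA).2 σ hσ).2.symm
    have h5 : (ρ σ).1.det = (p : ZMod 3) := by
      rw [← modThree_frobenius hp hp3 hA hσ, ← hdet]
      rfl
    rcases dt_eq hS (ρ σ) with h | h
    · rw [h4, h.1, chi_eq_one (h5.symm.trans h.2), Int.cast_one]
    · rw [h4, h.1, chi_eq_neg_one (h5.symm.trans h.2), Int.cast_neg, Int.cast_one]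
  -- the eigensystem
  have hc : ∀ ℓ : ℕ, ∃ t : ℤ√(-2), (ℓ.Prime → ¬ ℓ ∣ N → qCoeff g ℓ = ι t) ∧ (ℓ ∣ N → t = 0) := by
    intro ℓ
    by_cases hℓ : ℓ.Prime ∧ ¬ ℓ ∣ N
    · obtain ⟨A, hA, σ, hσ⟩ := Frob.exists_frobenius ℓ hℓ.1
      exact ⟨_, fun hp hpN => htr ℓ hp hpN A hA σ hσ, fun h => absurd h hℓ.2⟩
    · exact ⟨0, fun hp hpN => absurd ⟨hp, hpN⟩ hℓ, fun _ => rfl⟩
  choose c hc1 hc2 using hc
  obtain ⟨b, hb0, hb, hbc⟩ := Ext.E46.exists_eigensystem
    (fun ℓ => if ℓ ∣ N then 0 else ((chiNegThree ℓ : ℤ) : ℤ√(-2))) c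
  have hN1 : N ≠ 1 := by
    rintro rfl
    exact absurd h3 (by decide)
  have hbad : ∀ ℓ n : ℕ, ℓ.Prime → ℓ ∣ N → ℓ ∣ n → qCoeff g n = 0 := by
    intro ℓ n hℓ hℓN hℓn
    exact hdep n (Nat.not_coprime_of_dvd_of_dvd hℓ.one_lt hℓn hℓN)
  have hq : ∀ n : ℕ, qCoeff g n = ι (b n) := by
    have h4 := Ext.E46.isEigensystem_map ι hb
    refine Ext.E46.eigensystem_unique (e := fun n => ι (if n ∣ N then 0 else
      ((chiNegThree n : ℤ) : ℤ√(-2)))) ⟨h1, fun ℓ hℓ n => ?_⟩ h4 ?_ fun ℓ hℓ => ?_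
    · by_cases hd : ℓ ∣ N
      · simp only [if_pos hd, map_zero, zero_mul, add_zero]
        rw [hbad ℓ (ℓ * n) hℓ hd (dvd_mul_right ℓ n), hbad ℓ ℓ hℓ hd dvd_rfl, zero_mul]
      · simp only [if_neg hd, map_intCast]
        rw [← hε ℓ hℓ hd]
        exact hT ℓ hℓ hd n
    · rw [hb0, map_zero]
      exact hdep 0 (by rwa [Nat.coprime_zero_left])
    · rw [hbc ℓ hℓ]
      by_cases hd : ℓ ∣ N
      · rw [hc2 ℓ hd, map_zero, hbad ℓ ℓ hℓ hd dvd_rfl]
      · exact hc1 ℓ hℓ hd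
  refine ⟨N, inferInstance, b, hb, ⟨ι, g, hq⟩, fun p hp hp3N A hA σ hσ => hinj ?_⟩
  have hpN : ¬ p ∣ N := fun h => hp3N (h.mul_left 3)
  rw [← hq]
  exact htr p hp hpN A hA σ hσ

end Fermat.Agent.LT.End
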