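import Fermat.Agent.LT.End.Eigen
import Fermat.Prelude.Def_LanglandsTunnell_WeightOneRealizationCarriers

/-!
# End game of S47: from a weight one form which is an eigenform at the primes with `ρ(Frob) = ±1`
-/

set_option autoImplicit false

open AutomorphicForm FLT.ExplicitLift EisensteinWeightOne WeierstrassCurve
open CongruenceSubgroup Fermat.Agent.X1
open scoped MatrixGroups
local notation "Γℚ" => (AlgebraicClosure ℚ ≃ₐ[ℚ] AlgebraicClosure ℚ)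

namespace Fermat.Agent.LT.End

/-- What the theta lift must deliver: a non-zero weight one cusp form with `T_p f = ±2 f` at almost
all primes `p` with `ρ(Frob_p) = ±1`. -/
def WtOneInput (ρ : Γℚ →* GL (Fin 2) (ZMod 3)) : Prop :=
  ∃ (N : ℕ) (_ : NeZero N) (f : CuspForm (Gamma1 N) 1), f ≠ 0 ∧ ∃ B : Finset ℕ,
    ∀ (p : ℕ) (_ : Fact p.Prime), p ∉ B → ¬ p ∣ N →
      ∀ A : ValuationSubring (AlgebraicClosure ℚ), A.LiesOverPrime p →
        ∀ σ : Γℚ, A.IsFrobeniusAt σ p →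
          (ρ σ = 1 → tCusp N (Gamma1 N) 1 p f = (2 : ℂ) • f) ∧
          (ρ σ = -1 → tCusp N (Gamma1 N) 1 p f = (-2 : ℂ) • f)

/-- The conclusion of S47 for `ρ` and `Ψ`. -/
def Concl47 (ρ : Γℚ →* GL (Fin 2) (ZMod 3)) (Ψ : GL (Fin 2) (ZMod 3) →* GL (Fin 2) (ℤ√(-2))) :
    Prop :=
  ∃ (N : ℕ) (_ : NeZero N) (b : ℕ → ℤ√(-2)),
    FormalHecke.IsEigensystem
      (fun ℓ => if ℓ ∣ N then 0 else ((chiNegThree ℓ : ℤ) : ℤ√(-2))) b ∧
    CuspForm.IsWeightOneChiNegThreeRealized N b ∧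
    ∀ p : ℕ, p.Prime → ¬ p ∣ 3 * N →
      ∀ A : ValuationSubring (AlgebraicClosure ℚ), A.LiesOverPrime p →
        ∀ σ : Γℚ, A.IsFrobeniusAt σ p →
          b p = ((Ψ (ρ σ) : GL (Fin 2) (ℤ√(-2))) : Matrix (Fin 2) (Fin 2) (ℤ√(-2))).trace

/-- helper84's half -/
def GaloisHalf (ρ : Γℚ →* GL (Fin 2) (ZMod 3)) (Ψ : GL (Fin 2) (ZMod 3) →* GL (Fin 2) (ℤ√(-2))) :
    Prop :=
  ∀ (N : ℕ) [NeZero N], 3 ∣ N → ∀ (ε : DirichletCharacter ℂ N) (g : CuspForm (Gamma1 N) 1),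
    ModularFormClass.qCoeff g 1 = 1 →
    (∀ p : ℕ, p.Prime → ¬ p ∣ N → ∀ n : ℕ,
        ModularFormClass.qCoeff g (p * n) +
            ε (p : ZMod N) * (if p ∣ n then ModularFormClass.qCoeff g (n / p) else 0) =
          ModularFormClass.qCoeff g p * ModularFormClass.qCoeff g n) →
    (∀ n : ℕ, ¬ n.Coprime N → ModularFormClass.qCoeff g n = 0) →
    (∀ p : ℕ, p.Prime → ¬ p ∣ N →
      ∀ A : ValuationSubring (AlgebraicClosure ℚ), A.LiesOverPrime p →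
        ∀ σ : Γℚ, A.IsFrobeniusAt σ p →
          (ρ σ = 1 → ModularFormClass.qCoeff g p = 2) ∧
          (ρ σ = -1 → ModularFormClass.qCoeff g p = -2)) →
    Concl47 ρ Ψ

theorem concl47_of_input (ρ : Γℚ →* GL (Fin 2) (ZMod 3))
    (Ψ : GL (Fin 2) (ZMod 3) →* GL (Fin 2) (ℤ√(-2))) (hG : GaloisHalf ρ Ψ)
    (h : WtOneInput ρ) : Concl47 ρ Ψ := by
  classical
  obtain ⟨N, hN, f, hf, B, hB⟩ := h
  let F (p : ℕ) (s : GL (Fin 2) (ZMod 3)) : Prop :=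
    ∃ A : ValuationSubring (AlgebraicClosure ℚ), A.LiesOverPrime p ∧
      ∃ σ : Γℚ, A.IsFrobeniusAt σ p ∧ ρ σ = s
  obtain ⟨N', hN', ε, g, h1, h2, h3, h4, h5, h6⟩ := exists_normalised f hf
    {p : ℕ | p ∉ B ∧ (F p 1 ∨ F p (-1))} (fun p => if F p 1 then 2 else -2) (by
      rintro p hp hpN ⟨hpB, hF⟩
      by_cases hF1 : F p 1
      · rw [if_pos hF1]
        obtain ⟨A, hA, σ, hσ, hs⟩ := hF1
        exact (hB p hp hpB hpN A hA σ hσ).1 hs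
      · rw [if_neg hF1]
        obtain ⟨A, hA, σ, hσ, hs⟩ := hF.resolve_left hF1
        exact (hB p hp hpB hpN A hA σ hσ).2 hs) (insert 3 B)
  refine hG N' (h2 3 (Finset.mem_insert_self _ _) Nat.prime_three) ε g h3 h4 h5 ?_
  intro p hp hpN' A hA σ hσ
  have hpN : ¬ p ∣ N := fun h => hpN' (h.trans h1)
  have hpB : p ∉ B := fun h => hpN' (h2 p (Finset.mem_insert_of_mem h) hp)
  constructor
  · intro hs
    have hF1 : F p 1 := ⟨A, hA, σ, hσ, hs⟩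
    rw [h6 p hp hpN' ⟨hpB, Or.inl hF1⟩]
    exact if_pos hF1
  · intro hs
    have hF2 : F p (-1) := ⟨A, hA, σ, hσ, hs⟩
    rw [h6 p hp hpN' ⟨hpB, Or.inr hF2⟩]
    refine if_neg ?_
    rintro ⟨A', hA', σ', hσ', hs'⟩
    have e1 := (hB p ⟨hp⟩ hpB hpN A hA σ hσ).2 hs
    have e2 := (hB p ⟨hp⟩ hpB hpN A' hA' σ' hσ').1 hs'
    rw [e2, ← sub_eq_zero, ← sub_smul] at e1
    exact hf ((smul_eq_zero.mp e1).resolve_left (by norm_num))

end Fermat.Agent.LT.End
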