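import Fermat.Agent.LT.End.Galois
import Fermat.Agent.LT.End.Main

/-!
# The end game of S47: everything except the weight one form

`concl47`: the conclusion of S47 for `ρ` and `Ψ`, from a non-zero weight one cusp form `f` with
`T_p f = ±2 f` at almost all `p` with `ρ(Frob_p) = ±1`.
-/

set_option autoImplicit false

open AutomorphicForm FLT.ExplicitLift EisensteinWeightOne WeierstrassCurve
open CongruenceSubgroup Fermat.Agent.X1
open scoped MatrixGroups
local notation "Γℚ" => (AlgebraicClosure ℚ ≃ₐ[ℚ] AlgebraicClosure ℚ)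

namespace Fermat.Agent.LT.End

theorem galoisHalf
    (ρ : Γℚ →* GL (Fin 2) (ZMod 3)) (hρ : Continuous ρ) (hsurj : Function.Surjective ρ)
    (hdet : ∀ σ : Γℚ, Matrix.GeneralLinearGroup.det (ρ σ) = modThreeCyclotomicChar σ)
    (Ψ : GL (Fin 2) (ZMod 3) →* GL (Fin 2) (ℤ√(-2)))
    (hΨ : ∀ g, Matrix.GeneralLinearGroup.map red (Ψ g) = g) : GaloisHalf ρ Ψ :=
  fun N _ h3 ε g h1 hT hdep hx =>
    galois_half ρ hρ hsurj hdet Ψ hΨ (N := N) h3 ε g h1 hT hdep hx

/-- S47 from the weight one form delivered by the theta lift. -/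
theorem concl47
    (ρ : Γℚ →* GL (Fin 2) (ZMod 3)) (hρ : Continuous ρ) (hsurj : Function.Surjective ρ)
    (hdet : ∀ σ : Γℚ, Matrix.GeneralLinearGroup.det (ρ σ) = modThreeCyclotomicChar σ)
    (Ψ : GL (Fin 2) (ZMod 3) →* GL (Fin 2) (ℤ√(-2)))
    (hΨ : ∀ g, Matrix.GeneralLinearGroup.map red (Ψ g) = g) (h : WtOneInput ρ) :
    ∃ (N : ℕ) (_ : NeZero N) (b : ℕ → ℤ√(-2)),
      FormalHecke.IsEigensystem
        (fun ℓ => if ℓ ∣ N then 0 else ((chiNegThree ℓ : ℤ) : ℤ√(-2))) b ∧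
      CuspForm.IsWeightOneChiNegThreeRealized N b ∧
      ∀ p : ℕ, p.Prime → ¬ p ∣ 3 * N →
        ∀ A : ValuationSubring (AlgebraicClosure ℚ), A.LiesOverPrime p →
          ∀ σ : Γℚ, A.IsFrobeniusAt σ p →
            b p = ((Ψ (ρ σ) : GL (Fin 2) (ℤ√(-2))) :
              Matrix (Fin 2) (Fin 2) (ℤ√(-2))).trace :=
  concl47_of_input ρ Ψ (galoisHalf ρ hρ hsurj hdet Ψ hΨ) h

end Fermat.Agent.LT.End
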