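import Fermat.Agent.LT.End.Main

/-!
# Hecke operators on weight one forms on `Γ₁(N)` as explicit functions, and the input of the end game
-/

set_option autoImplicit false

noncomputable section

open CongruenceSubgroup Matrix.SpecialLinearGroup UpperHalfPlane Function
open scoped MatrixGroups ModularForm Manifold
local notation "Γℚ" => (AlgebraicClosure ℚ ≃ₐ[ℚ] AlgebraicClosure ℚ)

namespace Fermat.Agent.LT.End

open Fermat.Agent.X1 Fermat.Agent.HeckePar ModularFormClass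

variable {N : ℕ} [NeZero N]

/-- `(T_p f)(z) = p⁻¹ ∑_j f((z+j)/p) + (f ∣ g)(pz)` for any `g ∈ Γ₀(N)` with lower right entry
congruent to `p`. -/
theorem tCusp_one_apply (p : ℕ) [hp : Fact p.Prime] (hpN : ¬ p ∣ N)
    (f : CuspForm (Gamma1 N) 1) (g : SL(2, ℤ)) (hg : g ∈ Gamma0 N)
    (h : ((g 1 1 : ℤ) : ZMod N) = (p : ZMod N)) (z : ℍ) :
    tCusp N (Gamma1 N) 1 p f z =
      (p : ℂ)⁻¹ * ∑ j ∈ Finset.range p, f (ModularForm.heckeMatrix p j • z) +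
      ((f : ℍ → ℂ) ∣[(1 : ℤ)] g) (ModularForm.heckeDiagMatrix p • z) := by
  have hp0 : p ≠ 0 := hp.out.ne_zero
  have hcop : p.Coprime N := (Nat.Prime.coprime_iff_not_dvd hp.out).mpr hpN
  have h1 : (f : ℍ → ℂ) ∣[(1 : ℤ)] g = (f : ℍ → ℂ) ∣[(1 : ℤ)] diaMat N (pUnit N p) :=
    slash_eq_dia (inv_gamma1 (Gamma1 N) 1 f) g hg (pUnit N p) (by rw [h, coe_pUnit hcop])
  rw [coe_tCusp, slashSum_hecke 1 p hpN, Pi.add_apply, ModularForm.heckeU_apply 1 hp0,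
    ModularForm.slash_heckeDiagMatrix_apply 1 hp0, h1, sub_self, zpow_zero, one_mul]

/-- There is an element of `Γ₀(N)` with lower right entry `p` modulo `N`. -/
theorem exists_gamma0_lower (p : ℕ) (hp : p.Prime) (hpN : ¬ p ∣ N) :
    ∃ g ∈ Gamma0 N, (((g : SL(2, ℤ)) 1 1 : ℤ) : ZMod N) = (p : ZMod N) := by
  have hcop : p.Coprime N := (Nat.Prime.coprime_iff_not_dvd hp).mpr hpN
  exact ⟨diaMat N (pUnit N p), diaMat_mem _, by rw [diaMat_11, coe_pUnit hcop]⟩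

/-- The eigenvalue equation from an identity of functions. -/
theorem tCusp_eq_smul_of (p : ℕ) [hp : Fact p.Prime] (hpN : ¬ p ∣ N)
    (f : CuspForm (Gamma1 N) 1) (x : ℂ)
    (H : ∃ g ∈ Gamma0 N, (((g : SL(2, ℤ)) 1 1 : ℤ) : ZMod N) = (p : ZMod N) ∧ ∀ z : ℍ,
      (p : ℂ)⁻¹ * ∑ j ∈ Finset.range p, f (ModularForm.heckeMatrix p j • z) +
        ((f : ℍ → ℂ) ∣[(1 : ℤ)] g) (ModularForm.heckeDiagMatrix p • z) = x * f z) :
    tCusp N (Gamma1 N) 1 p f = x • f := by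
  obtain ⟨g, hg, h, hz⟩ := H
  refine DFunLike.coe_injective (funext fun z => ?_)
  rw [tCusp_one_apply p hpN f g hg h z, hz z]
  rfl

/-- The input of the end game from function identities. -/
theorem wtOneInput_of (ρ : Γℚ →* GL (Fin 2) (ZMod 3)) (f : CuspForm (Gamma1 N) 1) (hf : f ≠ 0)
    (B : Finset ℕ)
    (H : ∀ (p : ℕ), p.Prime → p ∉ B → ¬ p ∣ N → ∀ x : ℂ,
      (∃ A : ValuationSubring (AlgebraicClosure ℚ), A.LiesOverPrime p ∧
        ∃ σ : Γℚ, A.IsFrobeniusAt σ p ∧ ((ρ σ = 1 ∧ x = 2) ∨ (ρ σ = -1 ∧ x = -2))) →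
      ∃ g ∈ Gamma0 N, (((g : SL(2, ℤ)) 1 1 : ℤ) : ZMod N) = (p : ZMod N) ∧ ∀ z : ℍ,
      (p : ℂ)⁻¹ * ∑ j ∈ Finset.range p, f (ModularForm.heckeMatrix p j • z) +
        ((f : ℍ → ℂ) ∣[(1 : ℤ)] g) (ModularForm.heckeDiagMatrix p • z) = x * f z) :
    WtOneInput ρ := by
  refine ⟨N, inferInstance, f, hf, B, fun p hp hpB hpN A hA σ hσ => ⟨fun hs => ?_, fun hs => ?_⟩⟩
  · exact tCusp_eq_smul_of p hpN f 2 (H p hp.out hpB hpN 2 ⟨A, hA, σ, hσ, Or.inl ⟨hs, rfl⟩⟩)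
  · exact tCusp_eq_smul_of p hpN f (-2) (H p hp.out hpB hpN (-2) ⟨A, hA, σ, hσ, Or.inr ⟨hs, rfl⟩⟩)

/-- The form with the family law: `F c ∣ g = χ(d) F (d • c)` for `g ∈ Γ₀(N)` with lower right entry
`d`, and a Hecke identity of functions. -/
theorem tCusp_eq_smul_of_family (p : ℕ) [hp : Fact p.Prime] (hpN : ¬ p ∣ N)
    {C : Type*} [MulAction (ZMod N)ˣ C] (F : C → ℍ → ℂ) (χ : (ZMod N)ˣ → ℂ)
    (hF : ∀ (c : C) (g : SL(2, ℤ)) (u : (ZMod N)ˣ), g ∈ Gamma0 N →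
      (((g : SL(2, ℤ)) 1 1 : ℤ) : ZMod N) = (u : ZMod N) → F c ∣[(1 : ℤ)] g = χ u • F (u • c))
    (f : CuspForm (Gamma1 N) 1) (c : C) (hf : ⇑f = F c) (x : ℂ)
    (H : ∀ z : ℍ, (p : ℂ)⁻¹ * ∑ j ∈ Finset.range p, F c (ModularForm.heckeMatrix p j • z) +
        χ (pUnit N p) * F (pUnit N p • c) (ModularForm.heckeDiagMatrix p • z) = x * F c z) :
    tCusp N (Gamma1 N) 1 p f = x • f := by
  have hcop : p.Coprime N := (Nat.Prime.coprime_iff_not_dvd hp.out).mpr hpN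
  refine tCusp_eq_smul_of p hpN f x ⟨diaMat N (pUnit N p), diaMat_mem _,
    by rw [diaMat_11, coe_pUnit hcop], fun z => ?_⟩
  rw [hf, hF c (diaMat N (pUnit N p)) (pUnit N p) (diaMat_mem _) (by rw [diaMat_11])]
  exact H z

end Fermat.Agent.LT.End

end
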