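import Fermat.Agent.LT.End.Deplete

/-!
# From a partial eigenform of weight one to a normalised depleted eigenform
-/

set_option autoImplicit false

noncomputable section

open CongruenceSubgroup Matrix.SpecialLinearGroup UpperHalfPlane Function
open scoped MatrixGroups ModularForm Manifold

namespace Fermat.Agent.LT.End

open Fermat.Agent.X1 Fermat.Agent.HeckePar ModularFormClass

section Common

variable {V : Type*} [AddCommGroup V] [Module ℂ V] [FiniteDimensional ℂ V] {J : Type*}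

/-- Commuting operators on a nonzero stable subspace have a common eigenvector. -/
theorem exists_common_eigenvector (T : J → Module.End ℂ V) (hT : ∀ i j, Commute (T i) (T j))
    (n : ℕ) : ∀ W : Submodule ℂ V, Module.finrank ℂ W = n → W ≠ ⊥ →
    (∀ i, ∀ w ∈ W, T i w ∈ W) → ∃ v ∈ W, v ≠ 0 ∧ ∀ i, ∃ μ : ℂ, T i v = μ • v := by
  induction n using Nat.strongRecOn with
  | ind n ih =>
    intro W hn hW hst
    by_cases hscal : ∀ i, ∃ μ : ℂ, ∀ w ∈ W, T i w = μ • w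
    · obtain ⟨v, hv, hv0⟩ := Submodule.exists_mem_ne_zero_of_ne_bot hW
      exact ⟨v, hv, hv0, fun i => (hscal i).imp fun μ h => h v hv⟩
    · push Not at hscal
      obtain ⟨i, hi⟩ := hscal
      let Ti : Module.End ℂ W := (T i).restrict (hst i)
      have hnt : Nontrivial W := (Submodule.nontrivial_iff_ne_bot).mpr hW
      obtain ⟨μ, hμ⟩ := Module.End.exists_eigenvalue Ti
      let W' : Submodule ℂ V := W ⊓ LinearMap.ker (T i - μ • LinearMap.id)
      have hmem : ∀ w, w ∈ W' ↔ w ∈ W ∧ T i w = μ • w := by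
        intro w
        rw [Submodule.mem_inf, LinearMap.mem_ker, LinearMap.sub_apply, LinearMap.smul_apply,
          LinearMap.id_apply, sub_eq_zero]
      have hne : W' ≠ ⊥ := by
        obtain ⟨w, hw⟩ := hμ.exists_hasEigenvector
        intro h0
        have h1 : (w : V) ∈ W' := (hmem _).mpr ⟨w.2, by
          have := hw.apply_eq_smul
          exact congrArg Subtype.val this⟩
        rw [h0, Submodule.mem_bot] at h1
        exact hw.2 (Subtype.ext h1)
      have hlt : W' < W := by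
        refine lt_of_le_of_ne inf_le_left fun h0 => ?_
        obtain ⟨w, hw, hw'⟩ := hi μ
        rw [← h0] at hw
        exact hw' ((hmem w).mp hw).2
      obtain ⟨v, hv, hv0, hv'⟩ := ih (Module.finrank ℂ W')
        (by rw [← hn]; exact Submodule.finrank_lt_finrank_of_lt hlt) W' rfl hne (fun j w hw => by
          obtain ⟨h1, h2⟩ := (hmem w).mp hw
          refine (hmem _).mpr ⟨hst j w h1, ?_⟩
          have h3 := congrArg (fun F : Module.End ℂ V => F w) (hT i j).eq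
          simp only [Module.End.mul_apply] at h3
          rw [h3, h2, map_smul])
      exact ⟨v, ((hmem v).mp hv).1, hv0, hv'⟩

end Common

variable {N : ℕ} [NeZero N]

theorem finiteDimensional_S1 (N : ℕ) [NeZero N] :
    FiniteDimensional ℂ (CuspForm (Gamma1 N) 1) := by
  obtain ⟨B, hB⟩ := exists_sturm N (Gamma1 N) 1
  let L : CuspForm (Gamma1 N) 1 →ₗ[ℂ] (Fin (B + 1) → ℂ) :=
    LinearMap.pi fun i => qLin N (Gamma1 N) 1 (i : ℕ)
  refine FiniteDimensional.of_injective L ?_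
  rw [injective_iff_map_eq_zero]
  intro f hf
  exact hB f fun j hj => congrFun hf ⟨j, by omega⟩

theorem exists_qCoeff_ne_zero {f : CuspForm (Gamma1 N) 1} (hf : f ≠ 0) :
    ∃ n, qCoeff f n ≠ 0 := by
  by_contra h
  push Not at h
  obtain ⟨B, hB⟩ := exists_sturm N (Gamma1 N) 1
  exact hf (hB f fun n _ => h n)

/-- simultaneous eigenform for all `T_p`, `p ∤ N`, and all diamond operators -/
structure IsEig (t : ℕ → ℂ) (ψ : (ZMod N)ˣ → ℂ) (f : CuspForm (Gamma1 N) 1) : Prop where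
  hecke : ∀ (p : ℕ) (_ : Fact p.Prime), ¬ p ∣ N → tCusp N (Gamma1 N) 1 p f = t p • f
  dia : ∀ u : (ZMod N)ˣ, dCusp N (Gamma1 N) 1 u f = ψ u • f

theorem dCusp_comm' (u v : (ZMod N)ˣ) (f : CuspForm (Gamma1 N) 1) :
    dCusp N (Gamma1 N) 1 u (dCusp N (Gamma1 N) 1 v f) =
      dCusp N (Gamma1 N) 1 v (dCusp N (Gamma1 N) 1 u f) := by
  rw [← dCusp_mul, ← dCusp_mul, mul_comm]

/-- Step 1: a common eigenvector with the prescribed eigenvalues. -/
theorem exists_isEig (f : CuspForm (Gamma1 N) 1) (hf : f ≠ 0) (P : Set ℕ) (x : ℕ → ℂ)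
    (hP : ∀ (p : ℕ) (_ : Fact p.Prime), ¬ p ∣ N → p ∈ P →
      tCusp N (Gamma1 N) 1 p f = x p • f) :
    ∃ (t : ℕ → ℂ) (ψ : (ZMod N)ˣ → ℂ) (v : CuspForm (Gamma1 N) 1), v ≠ 0 ∧ IsEig t ψ v ∧
      ∀ p : ℕ, p.Prime → ¬ p ∣ N → p ∈ P → t p = x p := by
  classical
  have := finiteDimensional_S1 N
  let W : Submodule ℂ (CuspForm (Gamma1 N) 1) :=
    { carrier := {g | ∀ (p : ℕ) (_ : Fact p.Prime), ¬ p ∣ N → p ∈ P →
        tCusp N (Gamma1 N) 1 p g = x p • g}
      add_mem' := fun {a b} ha hb p hp h1 h2 => by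
        rw [map_add, ha p hp h1 h2, hb p hp h1 h2, smul_add]
      zero_mem' := fun p hp _ _ => by rw [map_zero, smul_zero]
      smul_mem' := fun c a ha p hp h1 h2 => by
        rw [map_smul, ha p hp h1 h2, smul_comm] }
  have hmemW : ∀ g, g ∈ W ↔ ∀ (p : ℕ) (_ : Fact p.Prime), ¬ p ∣ N → p ∈ P →
        tCusp N (Gamma1 N) 1 p g = x p • g := fun g => Iff.rfl
  let J := {p : ℕ // p.Prime ∧ ¬ p ∣ N} ⊕ (ZMod N)ˣ
  let T : J → Module.End ℂ (CuspForm (Gamma1 N) 1) := fun j =>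
    match j with
    | .inl p => haveI : Fact (p : ℕ).Prime := ⟨p.2.1⟩; tCusp N (Gamma1 N) 1 (p : ℕ)
    | .inr u => dCusp N (Gamma1 N) 1 u
  have hTl : ∀ (p : {p : ℕ // p.Prime ∧ ¬ p ∣ N}) (hp : Fact (p : ℕ).Prime)
      (g : CuspForm (Gamma1 N) 1), T (.inl p) g = tCusp N (Gamma1 N) 1 (p : ℕ) g :=
    fun p hp g => rfl
  have hTr : ∀ u (g : CuspForm (Gamma1 N) 1), T (.inr u) g = dCusp N (Gamma1 N) 1 u g :=
    fun u g => rfl
  have hcomm : ∀ i j, Commute (T i) (T j) := by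
    rintro (p | u) (q | v)
    · have hp : Fact (p : ℕ).Prime := ⟨p.2.1⟩
      have hq : Fact (q : ℕ).Prime := ⟨q.2.1⟩
      exact LinearMap.ext fun g => tCusp_comm (Gamma1 N) 1 (p : ℕ) (q : ℕ) g
    · have hp : Fact (p : ℕ).Prime := ⟨p.2.1⟩
      exact LinearMap.ext fun g => (dCusp_tCusp_comm (Gamma1 N) 1 v (p : ℕ) g).symm
    · have hq : Fact (q : ℕ).Prime := ⟨q.2.1⟩
      exact LinearMap.ext fun g => dCusp_tCusp_comm (Gamma1 N) 1 u (q : ℕ) g
    · exact LinearMap.ext fun g => dCusp_comm' u v g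
  have hst : ∀ i, ∀ w ∈ W, T i w ∈ W := by
    rintro (q | u) w hw p hp h1 h2
    · have hq : Fact (q : ℕ).Prime := ⟨q.2.1⟩
      rw [hTl q hq, tCusp_comm (Gamma1 N) 1 p (q : ℕ), hw p hp h1 h2, map_smul]
    · rw [hTr, ← dCusp_tCusp_comm (Gamma1 N) 1 u p, hw p hp h1 h2, map_smul]
  have hW : W ≠ ⊥ := by
    intro h0
    have h1 : f ∈ W := hP
    rw [h0, Submodule.mem_bot] at h1
    exact hf h1
  obtain ⟨v, hvW, hv0, hv⟩ := exists_common_eigenvector T hcomm _ W rfl hW hst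
  choose μ hμ using hv
  refine ⟨fun p => if h : p.Prime ∧ ¬ p ∣ N then μ (.inl ⟨p, h⟩) else 0, fun u => μ (.inr u), v,
    hv0, ⟨fun p hp hpN => ?_, fun u => ?_⟩, fun p hp hpN hpP => ?_⟩
  · rw [dif_pos ⟨hp.out, hpN⟩]
    exact hμ (.inl ⟨p, hp.out, hpN⟩)
  · exact hμ (.inr u)
  · show (if h : p.Prime ∧ ¬ p ∣ N then μ (.inl ⟨p, h⟩) else 0) = x p
    rw [dif_pos ⟨hp, hpN⟩]
    have h1 := hμ (.inl ⟨p, hp, hpN⟩)
    have h2 : T (.inl ⟨p, hp, hpN⟩) v = x p • v := hvW p ⟨hp⟩ hpN hpP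
    rw [h1, ← sub_eq_zero, ← sub_smul] at h2
    exact sub_eq_zero.mp ((smul_eq_zero.mp h2).resolve_right hv0)

theorem IsEig.smul {t : ℕ → ℂ} {ψ : (ZMod N)ˣ → ℂ} {f : CuspForm (Gamma1 N) 1}
    (hf : IsEig t ψ f) (c : ℂ) : IsEig t ψ (c • f) :=
  ⟨fun p hp hpN => by rw [map_smul, hf.hecke p hp hpN, smul_comm],
    fun u => by rw [map_smul, hf.dia u, smul_comm]⟩

theorem IsEig.u_op {t : ℕ → ℂ} {ψ : (ZMod N)ˣ → ℂ} {f : CuspForm (Gamma1 N) 1}
    (hf : IsEig t ψ f) (l : ℕ) [hl : Fact l.Prime] :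
    IsEig t ψ (tCusp N (Gamma1 N) 1 l f) :=
  ⟨fun p hp hpN => by rw [tCusp_comm (Gamma1 N) 1 p l, hf.hecke p hp hpN, map_smul],
    fun u => by rw [dCusp_tCusp_comm (Gamma1 N) 1 u l, hf.dia u, map_smul]⟩

/-- The coefficient relation of an eigenform. -/
theorem IsEig.coeff {t : ℕ → ℂ} {ψ : (ZMod N)ˣ → ℂ} {f : CuspForm (Gamma1 N) 1}
    (hf : IsEig t ψ f) (p : ℕ) [hp : Fact p.Prime] (hpN : ¬ p ∣ N) (n : ℕ) :
    qCoeff f (p * n) + ψ (pUnit N p) * (if p ∣ n then qCoeff f (n / p) else 0) =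
      t p * qCoeff f n := by
  have h1 := qCoeff_tCusp (Gamma1 N) 1 p hpN f n
  rw [hf.hecke p hp hpN, hf.dia, qCoeff_cusp_smul N (Gamma1 N) 1,
    qCoeff_cusp_smul N (Gamma1 N) 1] at h1
  rw [h1, mul_comm n p]
  split_ifs
  · norm_num
  · rw [mul_zero]

/-- Step 2: an eigenform with non-zero first coefficient. -/
theorem exists_first {t : ℕ → ℂ} {ψ : (ZMod N)ˣ → ℂ} {v : CuspForm (Gamma1 N) 1} (hv0 : v ≠ 0)
    (hv : IsEig t ψ v) : ∃ w : CuspForm (Gamma1 N) 1, IsEig t ψ w ∧ qCoeff w 1 = 1 := by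
  classical
  have hex : ∃ n, ∃ w : CuspForm (Gamma1 N) 1, IsEig t ψ w ∧ qCoeff w n ≠ 0 := by
    obtain ⟨n, hn⟩ := exists_qCoeff_ne_zero hv0
    exact ⟨n, v, hv, hn⟩
  obtain ⟨w, hw, hwn⟩ := Nat.find_spec hex
  have hmin : ∀ m < Nat.find hex, ∀ w : CuspForm (Gamma1 N) 1, IsEig t ψ w → qCoeff w m = 0 := by
    intro m hm w' hw'
    by_contra h
    exact Nat.find_min hex hm ⟨w', hw', h⟩
  set n := Nat.find hex with hn
  have hn0 : n ≠ 0 := by
    intro h0
    rw [h0] at hwn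
    exact hwn (qCoeff_cusp_zero' N (Gamma1 N) 1 w)
  have hn1 : n = 1 := by
    by_contra hne
    obtain ⟨l, hl, m, hm⟩ := Nat.exists_prime_and_dvd hne
    have hl' : Fact l.Prime := ⟨hl⟩
    have hm0 : 0 < m := Nat.pos_of_ne_zero (by rintro rfl; exact hn0 (by simpa using hm))
    have hmn : m < n := by rw [hm]; nlinarith [hl.two_le]
    by_cases hlN : l ∣ N
    · have h1 := hmin m hmn _ (hw.u_op l)
      rw [qCoeff_tCusp_of_dvd (Gamma1 N) 1 l hlN, mul_comm, ← hm] at h1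
      exact hwn h1
    · have h1 := hw.coeff l hlN m
      rw [← hm, hmin m hmn w hw, mul_zero] at h1
      have h2 : (if l ∣ m then qCoeff w (m / l) else 0) = 0 := by
        split_ifs
        · exact hmin _ (lt_of_le_of_lt (Nat.div_le_self _ _) hmn) w hw
        · rfl
      rw [h2, mul_zero, add_zero] at h1
      exact hwn h1
  rw [hn1] at hwn
  refine ⟨(qCoeff w 1)⁻¹ • w, hw.smul _, ?_⟩
  rw [qCoeff_cusp_smul N (Gamma1 N) 1, inv_mul_cancel₀ hwn]

/-- The nebentypus of an eigenform. -/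
theorem exists_character {t : ℕ → ℂ} {ψ : (ZMod N)ˣ → ℂ} {v : CuspForm (Gamma1 N) 1}
    (hv0 : v ≠ 0) (hv : IsEig t ψ v) :
    ∃ ε : DirichletCharacter ℂ N, ∀ u : (ZMod N)ˣ, ε (u : ZMod N) = ψ u := by
  have hone : ψ 1 = 1 := by
    have h1 := hv.dia 1
    rw [dCusp_one] at h1
    have h2 : (ψ 1 - 1) • v = 0 := by rw [sub_smul, ← h1, one_smul, sub_self]
    exact sub_eq_zero.mp ((smul_eq_zero.mp h2).resolve_right hv0)
  have hmul : ∀ a b, ψ (a * b) = ψ a * ψ b := by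
    intro a b
    have h1 := hv.dia (a * b)
    rw [dCusp_mul, hv.dia b, map_smul, hv.dia a, smul_smul] at h1
    have h2 : (ψ (a * b) - ψ a * ψ b) • v = 0 := by
      rw [sub_smul, ← h1, mul_comm (ψ a), sub_self]
    exact sub_eq_zero.mp ((smul_eq_zero.mp h2).resolve_right hv0)
  let φ : (ZMod N)ˣ →* ℂ := { toFun := ψ, map_one' := hone, map_mul' := hmul }
  refine ⟨MulChar.ofUnitHom φ.toHomUnits, fun u => ?_⟩
  rw [MulChar.ofUnitHom_coe]
  rfl

/-- **The modular half of the end game.** -/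
theorem exists_normalised (f : CuspForm (Gamma1 N) 1) (hf : f ≠ 0) (P : Set ℕ) (x : ℕ → ℂ)
    (hP : ∀ (p : ℕ) (_ : Fact p.Prime), ¬ p ∣ N → p ∈ P →
      tCusp N (Gamma1 N) 1 p f = x p • f) (S : Finset ℕ) :
    ∃ (N' : ℕ) (_ : NeZero N') (ε : DirichletCharacter ℂ N') (g : CuspForm (Gamma1 N') 1),
      N ∣ N' ∧ (∀ q ∈ S, q.Prime → q ∣ N') ∧ qCoeff g 1 = 1 ∧
      (∀ p : ℕ, p.Prime → ¬ p ∣ N' → ∀ n : ℕ,
        qCoeff g (p * n) + ε (p : ZMod N') * (if p ∣ n then qCoeff g (n / p) else 0) =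
          qCoeff g p * qCoeff g n) ∧
      (∀ n : ℕ, ¬ n.Coprime N' → qCoeff g n = 0) ∧
      ∀ p : ℕ, p.Prime → ¬ p ∣ N' → p ∈ P → qCoeff g p = x p := by
  classical
  obtain ⟨t, ψ, v, hv0, hv, hx⟩ := exists_isEig f hf P x hP
  obtain ⟨w, hw, hw1⟩ := exists_first hv0 hv
  obtain ⟨ε, hε⟩ := exists_character hv0 hv
  have hN0 : N ≠ 0 := NeZero.ne N
  set S' : Finset ℕ := S.filter Nat.Prime ∪ N.primeFactors with hS'
  have hS'p : ∀ r ∈ S', r.Prime := by
    intro r hr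
    rcases Finset.mem_union.mp hr with h | h
    · exact (Finset.mem_filter.mp h).2
    · exact Nat.prime_of_mem_primeFactors h
  obtain ⟨N', hN', h1, h2, h3, g, hg⟩ := exists_deplete S' hS'p N w
  have hdvd : ∀ p : ℕ, p.Prime → (p ∣ N' ↔ p ∈ S') := by
    intro p hp
    refine ⟨fun h => ?_, fun h => h2 p h⟩
    rcases h3 p hp h with h | h
    · exact Finset.mem_union.mpr (Or.inr (Nat.mem_primeFactors.mpr ⟨hp, h, hN0⟩))
    · exact h
  have hbad : ∀ n : ℕ, (∃ r ∈ S', r ∣ n) ↔ ¬ n.Coprime N' := by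
    intro n
    constructor
    · rintro ⟨r, hr, hrn⟩ hc
      have hrN : r ∣ N' := h2 r hr
      have := Nat.dvd_gcd hrn hrN
      rw [hc] at this
      exact (hS'p r hr).one_lt.ne' (Nat.dvd_one.mp this)
    · intro hc
      obtain ⟨r, hr, hrn, hrN⟩ := Nat.Prime.not_coprime_iff_dvd.mp hc
      exact ⟨r, (hdvd r hr).mp hrN, hrn⟩
  have hgc : ∀ n : ℕ, qCoeff g n = if n.Coprime N' then qCoeff w n else 0 := by
    intro n
    rw [hg n]
    by_cases hc : n.Coprime N'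
    · rw [if_pos hc, if_neg]
      rw [hbad]
      exact fun h => h hc
    · rw [if_neg hc, if_pos ((hbad n).mpr hc)]
  have hε' : ∀ p : ℕ, p.Prime → ¬ p ∣ N' → (DirichletCharacter.changeLevel h1 ε) (p : ZMod N') =
      ψ (pUnit N p) := by
    intro p hp hpN'
    have hcop : p.Coprime N' := (Nat.Prime.coprime_iff_not_dvd hp).mpr hpN'
    have hpN : ¬ p ∣ N := fun h => hpN' (h.trans h1)
    have hcop' : p.Coprime N := (Nat.Prime.coprime_iff_not_dvd hp).mpr hpN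
    rw [← hε, coe_pUnit hcop', ← ZMod.coe_unitOfCoprime p hcop,
      DirichletCharacter.changeLevel_eq_cast_of_dvd]
    congr 1
    rw [ZMod.coe_unitOfCoprime, ZMod.cast_natCast h1]
  have hwp : ∀ p : ℕ, p.Prime → ¬ p ∣ N → t p = qCoeff w p := by
    intro p hp hpN
    have hpF : Fact p.Prime := ⟨hp⟩
    have h4 := hw.coeff p hpN 1
    rw [if_neg hp.not_dvd_one, mul_zero, add_zero, mul_one, hw1, mul_one] at h4
    exact h4.symm
  refine ⟨N', hN', DirichletCharacter.changeLevel h1 ε, g, h1, ?_, ?_, ?_, ?_, ?_⟩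
  · intro q hq hqp
    exact h2 q (Finset.mem_union.mpr (Or.inl (Finset.mem_filter.mpr ⟨hq, hqp⟩)))
  · rw [hgc, if_pos (Nat.coprime_one_left N'), hw1]
  · intro p hp hpN' n
    have hpF : Fact p.Prime := ⟨hp⟩
    have hpN : ¬ p ∣ N := fun h => hpN' (h.trans h1)
    have hcop : p.Coprime N' := (Nat.Prime.coprime_iff_not_dvd hp).mpr hpN'
    have h4 := hw.coeff p hpN n
    rw [hε' p hp hpN', hgc (p * n), hgc p, hgc n, if_pos hcop, ← hwp p hp hpN]
    by_cases hn : n.Coprime N'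
    · rw [if_pos hn, if_pos (Nat.Coprime.mul_left hcop hn)]
      have h5 : (if p ∣ n then qCoeff g (n / p) else 0) = if p ∣ n then qCoeff w (n / p) else 0 := by
        split_ifs with hpn
        · rw [hgc, if_pos (Nat.Coprime.coprime_div_left hn hpn)]
        · rfl
      rw [h5]
      exact h4
    · rw [if_neg hn, if_neg (fun h => hn (Nat.Coprime.coprime_mul_left h)), mul_zero, zero_add]
      split_ifs with hpn
      · rw [hgc, if_neg, mul_zero]
        intro hc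
        apply hn
        have h6 := Nat.Coprime.mul_left hcop hc
        rwa [Nat.mul_div_cancel' hpn] at h6
      · rw [mul_zero]
  · intro n hn
    rw [hgc, if_neg hn]
  · intro p hp hpN' hpP
    have hpN : ¬ p ∣ N := fun h => hpN' (h.trans h1)
    rw [hgc, if_pos ((Nat.Prime.coprime_iff_not_dvd hp).mpr hpN'), ← hwp p hp hpN,
      hx p hp hpN hpP]

end Fermat.Agent.LT.End

end
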