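import Fermat.Agent.X1.HeckeNeb

/-!
# Removing Euler factors from weight `k` cusp forms on `Γ₁(N)`
-/

set_option autoImplicit false

noncomputable section

open CongruenceSubgroup Matrix.SpecialLinearGroup UpperHalfPlane Function
open scoped MatrixGroups ModularForm Manifold

namespace Fermat.Agent.LT.End

open Fermat.Agent.X1 Fermat.Agent.HeckePar ModularFormClass

variable {N M q : ℕ} {k : ℤ}

theorem gamma1_le_of_dvd (h : M ∣ N) : Gamma1 N ≤ Gamma1 M := by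
  intro A hA
  rw [Gamma1_mem] at hA ⊢
  obtain ⟨h1, h2, h3⟩ := hA
  have key : ∀ z w : ℤ, (z : ZMod N) = (w : ZMod N) → (z : ZMod M) = (w : ZMod M) := by
    intro z w hzw
    have h4 := congrArg (ZMod.castHom h (ZMod M)) hzw
    simpa using h4
  refine ⟨?_, ?_, ?_⟩
  · simpa using key (A 0 0) 1 (by simpa using h1)
  · simpa using key (A 1 1) 1 (by simpa using h2)
  · simpa using key (A 1 0) 0 (by simpa using h3)

theorem gamma1_GL_le_of_dvd (h : M ∣ N) :
    (Gamma1 N : Subgroup (GL (Fin 2) ℝ)) ≤ (Gamma1 M : Subgroup (GL (Fin 2) ℝ)) :=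
  Subgroup.map_mono (gamma1_le_of_dvd h)

/-- The inclusion `S_k(Γ₁(M)) → S_k(Γ₁(N))` for `M ∣ N`. -/
def restr1 (h : M ∣ N) (f : CuspForm (Gamma1 M) k) : CuspForm (Gamma1 N) k where
  toFun := f
  slash_action_eq' γ hγ := SlashInvariantFormClass.slash_action_eq f γ (gamma1_GL_le_of_dvd h hγ)
  holo' := CuspFormClass.holo f
  zero_at_cusps' hc := f.zero_at_cusps' (hc.mono (gamma1_GL_le_of_dvd h))

@[simp] theorem coe_restr1 (h : M ∣ N) (f : CuspForm (Gamma1 M) k) :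
    (⇑(restr1 h f) : ℍ → ℂ) = ⇑f := rfl

theorem exists_diag_mul1 (hq : q ≠ 0) (hN : N = q * M) (g : SL(2, ℤ)) (hg : g ∈ Gamma1 N) :
    ∃ g' ∈ Gamma1 M, ModularForm.heckeDiagMatrix q * mapGL ℝ g =
      mapGL ℝ g' * ModularForm.heckeDiagMatrix q := by
  have hMN : M ∣ N := ⟨q, by rw [hN, mul_comm]⟩
  have hg1 := gamma1_le_of_dvd hMN hg
  rw [Gamma1_mem] at hg hg1
  obtain ⟨c, hc⟩ : (N : ℤ) ∣ g 1 0 := (ZMod.intCast_zmod_eq_zero_iff_dvd _ _).mp hg.2.2
  have hd := det_SL g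
  have hNz : (N : ℤ) = q * M := by rw [hN]; push_cast; rfl
  rw [hNz] at hc
  let g' : SL(2, ℤ) := ⟨!![g 0 0, q * g 0 1; M * c, g 1 1], by
    rw [Matrix.det_fin_two_of]
    rw [hc] at hd
    linear_combination hd⟩
  refine ⟨g', ?_, diag_mul q hq g g' rfl rfl ?_ rfl⟩
  · rw [Gamma1_mem]
    refine ⟨hg1.1, hg1.2.1, ?_⟩
    show ((M * c : ℤ) : ZMod M) = 0
    push_cast
    rw [ZMod.natCast_self, zero_mul]
  · show g 1 0 = q * (M * c)
    rw [hc]; ring

open ConjAct Pointwise in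
theorem gamma1_le_conj_diag (hq : q ≠ 0) (hN : N = q * M) :
    (Gamma1 N : Subgroup (GL (Fin 2) ℝ)) ≤
      toConjAct (ModularForm.heckeDiagMatrix q)⁻¹ • (Gamma1 M : Subgroup (GL (Fin 2) ℝ)) := by
  rintro γ ⟨g, hg, rfl⟩
  rw [Subgroup.mem_pointwise_smul_iff_inv_smul_mem, ← map_inv, ConjAct.toConjAct_smul, inv_inv]
  obtain ⟨g', hg', h⟩ := exists_diag_mul1 hq hN g hg
  have : ModularForm.heckeDiagMatrix q * mapGL ℝ g * (ModularForm.heckeDiagMatrix q)⁻¹ =
      mapGL ℝ g' := by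
    rw [h]; group
  show ModularForm.heckeDiagMatrix q * mapGL ℝ g * (ModularForm.heckeDiagMatrix q)⁻¹ ∈ _
  rw [this]
  exact Subgroup.mem_map_of_mem _ hg'

/-- `f ↦ f ∣[k] diag(q,1)` on `Γ₁`. -/
def V1 (hq : q ≠ 0) (hN : N = q * M) (f : CuspForm (Gamma1 M) k) : CuspForm (Gamma1 N) k where
  toFun := (⇑f : ℍ → ℂ) ∣[k] ModularForm.heckeDiagMatrix q
  slash_action_eq' := fun γ hγ => by
    obtain ⟨g, hg, rfl⟩ := hγ
    obtain ⟨g', hg', h⟩ := exists_diag_mul1 hq hN g hg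
    have hinv : (⇑f : ℍ → ℂ) ∣[k] (mapGL ℝ g') = ⇑f :=
      SlashInvariantFormClass.slash_action_eq f (mapGL ℝ g')
        (show mapGL ℝ g' ∈ (Gamma1 M : Subgroup (GL (Fin 2) ℝ)) from
          Subgroup.mem_map_of_mem _ hg')
    have h' : ModularForm.heckeDiagMatrix q * (mapGL ℝ g) =
      mapGL ℝ g' * ModularForm.heckeDiagMatrix q := h
    rw [← SlashAction.slash_mul]
    erw [h']
    rw [SlashAction.slash_mul, hinv]
  holo' := (CuspFormClass.holo f).slash k _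
  zero_at_cusps' := fun {c} hc =>
    (CuspForm.translate f (ModularForm.heckeDiagMatrix q)).zero_at_cusps'
      (hc.mono (gamma1_le_conj_diag hq hN))

theorem coe_V1 (hq : q ≠ 0) (hN : N = q * M) (f : CuspForm (Gamma1 M) k) :
    (⇑(V1 hq hN f) : ℍ → ℂ) = (⇑f : ℍ → ℂ) ∣[k] ModularForm.heckeDiagMatrix q := rfl

theorem qCoeff_V1 [NeZero M] (hq : q ≠ 0) (hN : N = q * M) (f : CuspForm (Gamma1 M) k) (n : ℕ) :
    qCoeff ⇑(V1 hq hN f) n = if q ∣ n then (q : ℂ) ^ (k - 1) * qCoeff ⇑f (n / q) else 0 := by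
  rw [coe_V1, (qGood_of_modularFormClass M (Gamma1 M) k f).qCoeff_diag k hq]

/-- Removing the Euler factor at one prime. -/
theorem exists_deplete_one [NeZero M] (r : ℕ) (hr : r.Prime) (f : CuspForm (Gamma1 M) k) :
    ∃ g : CuspForm (Gamma1 (r * (r * M))) k, ∀ n, qCoeff ⇑g n = if r ∣ n then 0 else qCoeff ⇑f n := by
  have : Fact r.Prime := ⟨hr⟩
  have : NeZero (r * M) := ⟨mul_ne_zero hr.ne_zero (NeZero.ne M)⟩
  have : NeZero (r * (r * M)) := ⟨mul_ne_zero hr.ne_zero (NeZero.ne _)⟩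
  have hr0 : (r : ℂ) ^ (k - 1) ≠ 0 := zpow_ne_zero _ (by exact_mod_cast hr.ne_zero)
  set f1 : CuspForm (Gamma1 (r * M)) k := restr1 (dvd_mul_left M r) f with hf1
  set f2 := tCusp (r * M) (Gamma1 (r * M)) k r f1 with hf2
  refine ⟨restr1 (dvd_mul_left (r * M) r) f1 +
    (-((r : ℂ) ^ (k - 1))⁻¹) • V1 hr.ne_zero rfl f2, fun n => ?_⟩
  rw [qCoeff_cusp_add (r * (r * M)) (Gamma1 _) k, qCoeff_cusp_smul (r * (r * M)) (Gamma1 _) k,
    qCoeff_V1, coe_restr1, hf1, coe_restr1, hf2,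
    qCoeff_tCusp_of_dvd (Gamma1 (r * M)) k r (dvd_mul_right r M)]
  split_ifs with h
  · rw [Nat.div_mul_cancel h, coe_restr1, neg_mul, inv_mul_cancel_left₀ hr0, add_neg_cancel]
  · rw [mul_zero, add_zero]

/-- Removing the Euler factors at a finite set of primes. -/
theorem exists_deplete (S : Finset ℕ) (hS : ∀ r ∈ S, r.Prime) :
    ∀ (M : ℕ) [NeZero M] (f : CuspForm (Gamma1 M) k),
    ∃ (N : ℕ) (_ : NeZero N), M ∣ N ∧ (∀ r ∈ S, r ∣ N) ∧ (∀ p : ℕ, p.Prime → p ∣ N → p ∣ M ∨ p ∈ S) ∧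
      ∃ g : CuspForm (Gamma1 N) k, ∀ n, qCoeff ⇑g n = if ∃ r ∈ S, r ∣ n then 0 else qCoeff ⇑f n := by
  classical
  induction S using Finset.induction_on with
  | empty =>
    intro M _ f
    exact ⟨M, inferInstance, dvd_rfl, by simp, fun p _ h => Or.inl h, f, by simp⟩
  | insert r S hr ih =>
    intro M _ f
    have hrp : r.Prime := hS r (Finset.mem_insert_self _ _)
    have : NeZero (r * (r * M)) :=
      ⟨mul_ne_zero hrp.ne_zero (mul_ne_zero hrp.ne_zero (NeZero.ne M))⟩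
    obtain ⟨f', hf'⟩ := exists_deplete_one r hrp f
    obtain ⟨N, hN, h1, h2, h3, g, hg⟩ := ih (fun s hs => hS s (Finset.mem_insert_of_mem hs))
      (r * (r * M)) f'
    refine ⟨N, hN, ((dvd_mul_left M r).trans (dvd_mul_left _ r)).trans h1, ?_, ?_, g, ?_⟩
    · intro s hs
      rcases Finset.mem_insert.mp hs with rfl | hs
      · exact (dvd_mul_right _ _).trans h1
      · exact h2 s hs
    · intro p hp hpN
      rcases h3 p hp hpN with h | h
      · rcases hp.dvd_mul.mp h with h | h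
        · exact Or.inr (Finset.mem_insert.mpr (Or.inl ((Nat.prime_dvd_prime_iff_eq hp hrp).mp h)))
        · rcases hp.dvd_mul.mp h with h | h
          · exact Or.inr (Finset.mem_insert.mpr (Or.inl ((Nat.prime_dvd_prime_iff_eq hp hrp).mp h)))
          · exact Or.inl h
      · exact Or.inr (Finset.mem_insert_of_mem h)
    · intro n
      rw [hg n, hf' n]
      by_cases h4 : ∃ s ∈ S, s ∣ n
      · rw [if_pos h4, if_pos]
        obtain ⟨s, hs, hsn⟩ := h4
        exact ⟨s, Finset.mem_insert_of_mem hs, hsn⟩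
      · rw [if_neg h4]
        by_cases h5 : r ∣ n
        · rw [if_pos h5, if_pos ⟨r, Finset.mem_insert_self _ _, h5⟩]
        · rw [if_neg h5, if_neg]
          rintro ⟨s, hs, hsn⟩
          rcases Finset.mem_insert.mp hs with rfl | hs
          · exact h5 hsn
          · exact h4 ⟨s, hs, hsn⟩

end Fermat.Agent.LT.End

end
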